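import Mathlib

/-!
# S18 / M3-T (helper947): integrality over subrings of a field — toolkit

Mathlib-only.  `Ω` is a field, `S T : Subring Ω`.

* `isIntegral_of_poly`        : a root of a monic polynomial of `Ω[X]` whose coefficients lie in the
                                 range of `algebraMap A Ω` is integral over `A`.
* `isIntegral_subring_iff`    : `IsIntegral S b ↔ ∃ P ∈ Ω[X]` monic with coefficients in `S`, `P(b) = 0`.
* `IC S`                      : the integral closure of `S` in `Ω`, as a `Subring Ω`.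
* `IC_mono`, `IC_le_of_le_IC` : monotonicity and transitivity.
* `Clears S a f`              : `∃ K, a ^ K * f ∈ S`; `clears_closure`.
* `exists_pow_mul_isIntegral` : clearing denominators: if `a` clears every element of `S'` into `S`
                                 and `c` is integral over `S'`, then `a ^ K * c` is integral over `S`.
* `mem_of_isIntegral_of_inv_mem` : a "valuation ring" is integrally closed (elementwise).
* `isIntegral_of_pow_eq`      : `b ^ n = ∑_{i<n} c i * b ^ i`, `c i ∈ S` ⟹ `b` integral over `S`.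
-/

set_option autoImplicit false

namespace Fermat.Agent.S18.H947

open Polynomial

variable {Ω : Type*} [Field Ω]

/-- A root of a monic polynomial over `Ω` with coefficients in the range of `A → Ω` is integral
over `A`. -/
theorem isIntegral_of_poly {A : Type*} [CommRing A] [Algebra A Ω] {b : Ω}
    (P : Polynomial Ω) (hP : P.Monic) (hc : ∀ i, P.coeff i ∈ Set.range (algebraMap A Ω))
    (hb : P.eval b = 0) : IsIntegral A b := by
  obtain ⟨q, hq, -, hqm⟩ :=
    lifts_and_natDegree_eq_and_monic ((lifts_iff_coeff_lifts P).2 hc) hP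
  refine ⟨q, hqm, ?_⟩
  rw [← eval_map, hq]
  exact hb

/-- Integrality over a subring, in polynomial form. -/
theorem isIntegral_subring_iff (S : Subring Ω) (b : Ω) :
    IsIntegral S b ↔ ∃ P : Polynomial Ω, P.Monic ∧ (∀ i, P.coeff i ∈ S) ∧ P.eval b = 0 := by
  constructor
  · rintro ⟨p, hp, hpb⟩
    refine ⟨p.map (algebraMap S Ω), hp.map _, ?_, ?_⟩
    · intro i
      rw [coeff_map]
      exact (p.coeff i).2
    · rw [eval_map]
      exact hpb
  · rintro ⟨P, hP, hc, hb⟩
    refine isIntegral_of_poly P hP (fun i => ?_) hb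
    exact ⟨⟨P.coeff i, hc i⟩, rfl⟩

/-- The integral closure of the subring `S` in `Ω`, as a subring of `Ω`. -/
def IC (S : Subring Ω) : Subring Ω := (integralClosure S Ω).toSubring

theorem mem_IC {S : Subring Ω} {b : Ω} : b ∈ IC S ↔ IsIntegral S b := Iff.rfl

theorem le_IC (S : Subring Ω) : S ≤ IC S := fun s hs =>
  mem_IC.2 (isIntegral_algebraMap (R := S) (A := Ω) (x := ⟨s, hs⟩))

theorem IC_mono {S T : Subring Ω} (h : S ≤ T) : IC S ≤ IC T := by
  intro b hb
  rw [mem_IC, isIntegral_subring_iff] at hb ⊢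
  obtain ⟨P, hP, hc, hPb⟩ := hb
  exact ⟨P, hP, fun i => h (hc i), hPb⟩

/-- Transitivity of integrality: if `T` is integral over `S` then everything integral over `T`
is integral over `S`. -/
theorem IC_le_of_le_IC {S T : Subring Ω} (h : T ≤ IC S) : IC T ≤ IC S := by
  intro b hb
  rw [mem_IC, isIntegral_subring_iff] at hb
  obtain ⟨P, hP, hc, hPb⟩ := hb
  have hb' : IsIntegral (integralClosure S Ω) b := by
    refine isIntegral_of_poly P hP (fun i => ?_) hPb
    exact ⟨⟨P.coeff i, h (hc i)⟩, rfl⟩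
  have hmem : b ∈ integralClosure (integralClosure S Ω) Ω := hb'
  rw [integralClosure_idem] at hmem
  obtain ⟨a, ha⟩ := Algebra.mem_bot.1 hmem
  rw [← ha]
  exact a.2

theorem isIntegral_mono {S T : Subring Ω} (h : S ≤ T) {b : Ω} (hb : IsIntegral S b) :
    IsIntegral T b := IC_mono h hb

theorem isIntegral_trans_subring {S T : Subring Ω} (h : ∀ t ∈ T, IsIntegral S t) {b : Ω}
    (hb : IsIntegral T b) : IsIntegral S b := IC_le_of_le_IC (S := S) (T := T) h hb

theorem isIntegral_of_mem {S : Subring Ω} {b : Ω} (hb : b ∈ S) : IsIntegral S b := le_IC S hb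

/-! ### Clearing denominators -/

/-- `a` clears `f` into `S`: some power of `a` times `f` lies in `S`. -/
def Clears (S : Subring Ω) (a f : Ω) : Prop := ∃ K : ℕ, a ^ K * f ∈ S

theorem Clears.of_mem {S : Subring Ω} {a f : Ω} (hf : f ∈ S) : Clears S a f :=
  ⟨0, by simpa using hf⟩

theorem pow_mul_mem_of_le {S : Subring Ω} {a f : Ω} (ha : a ∈ S) {K K' : ℕ} (hK : K ≤ K')
    (h : a ^ K * f ∈ S) : a ^ K' * f ∈ S := by
  obtain ⟨d, rfl⟩ := Nat.exists_eq_add_of_le hK
  have : a ^ (K + d) * f = a ^ d * (a ^ K * f) := by ring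
  rw [this]
  exact S.mul_mem (S.pow_mem ha d) h

theorem clears_closure {S : Subring Ω} {a : Ω} (ha : a ∈ S) {G : Set Ω}
    (hG : ∀ g ∈ G, Clears S a g) : ∀ f ∈ Subring.closure G, Clears S a f := by
  intro f hf
  induction hf using Subring.closure_induction with
  | mem x hx => exact hG x hx
  | zero => exact ⟨0, by simp⟩
  | one => exact ⟨0, by simp⟩
  | add x y _ _ hx hy =>
    obtain ⟨K₁, h₁⟩ := hx
    obtain ⟨K₂, h₂⟩ := hy
    refine ⟨max K₁ K₂, ?_⟩
    rw [mul_add]
    exact S.add_mem (pow_mul_mem_of_le ha (le_max_left _ _) h₁)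
      (pow_mul_mem_of_le ha (le_max_right _ _) h₂)
  | neg x _ hx =>
    obtain ⟨K, h⟩ := hx
    exact ⟨K, by rw [mul_neg]; exact S.neg_mem h⟩
  | mul x y _ _ hx hy =>
    obtain ⟨K₁, h₁⟩ := hx
    obtain ⟨K₂, h₂⟩ := hy
    refine ⟨K₁ + K₂, ?_⟩
    have : a ^ (K₁ + K₂) * (x * y) = (a ^ K₁ * x) * (a ^ K₂ * y) := by ring
    rw [this]
    exact S.mul_mem h₁ h₂

/-- A uniform exponent clearing all coefficients of a polynomial. -/
theorem exists_pow_clears_coeffs {S : Subring Ω} {a : Ω} (ha : a ∈ S) (P : Polynomial Ω)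
    (h : ∀ i, Clears S a (P.coeff i)) : ∃ K : ℕ, ∀ i, a ^ K * P.coeff i ∈ S := by
  choose k hk using h
  refine ⟨(Finset.range (P.natDegree + 1)).sup k, fun i => ?_⟩
  by_cases hi : i ≤ P.natDegree
  · exact pow_mul_mem_of_le ha
      (Finset.le_sup (f := k) (Finset.mem_range.2 (Nat.lt_succ_of_le hi))) (hk i)
  · rw [coeff_eq_zero_of_natDegree_lt (not_le.1 hi), mul_zero]
    exact S.zero_mem

/-- **Clearing denominators.**  If `a ∈ S` clears every element of `S'` into `S` and `c` is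
integral over `S'`, then `a ^ K * c` is integral over `S` for some `K`. -/
theorem exists_pow_mul_isIntegral {S S' : Subring Ω} {a : Ω} (ha : a ∈ S)
    (h : ∀ f ∈ S', Clears S a f) {c : Ω} (hc : IsIntegral S' c) :
    ∃ K : ℕ, IsIntegral S (a ^ K * c) := by
  rw [isIntegral_subring_iff] at hc
  obtain ⟨P, hP, hcoef, hPc⟩ := hc
  obtain ⟨K, hK⟩ := exists_pow_clears_coeffs ha P (fun i => h _ (hcoef i))
  refine ⟨K, (isIntegral_subring_iff S _).2 ⟨scaleRoots P (a ^ K), ?_, ?_, ?_⟩⟩
  · exact (monic_scaleRoots_iff _).2 hP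
  · intro i
    rw [coeff_scaleRoots]
    rcases lt_trichotomy i P.natDegree with hi | hi | hi
    · obtain ⟨d, hd⟩ : ∃ d, P.natDegree - i = d + 1 :=
        ⟨P.natDegree - i - 1, by omega⟩
      rw [hd, pow_succ]
      have : P.coeff i * ((a ^ K) ^ d * a ^ K) = (a ^ K) ^ d * (a ^ K * P.coeff i) := by ring
      rw [this]
      exact S.mul_mem (S.pow_mem (S.pow_mem ha K) d) (hK i)
    · rw [hi, Nat.sub_self, pow_zero, mul_one, hP.coeff_natDegree]
      exact S.one_mem
    · rw [coeff_eq_zero_of_natDegree_lt hi, zero_mul]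
      exact S.zero_mem
  · have := scaleRoots_eval₂_eq_zero (RingHom.id Ω) (p := P) (r := c) (s := a ^ K)
      (by simpa [eval₂_id] using hPc)
    simpa [eval₂_id] using this

/-! ### Valuation rings are integrally closed (elementwise) -/

/-- If `b⁻¹ ∈ V` and `b` is integral over `V`, then `b ∈ V`. -/
theorem mem_of_isIntegral_of_inv_mem {V : Subring Ω} {b : Ω} (hinv : b⁻¹ ∈ V)
    (hint : IsIntegral V b) : b ∈ V := by
  by_cases hb0 : b = 0
  · rw [hb0]; exact V.zero_mem
  rw [isIntegral_subring_iff] at hint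
  obtain ⟨P, hP, hc, hPb⟩ := hint
  rw [eval_eq_sum_range, Finset.sum_range_succ, hP.coeff_natDegree, one_mul] at hPb
  rcases Nat.eq_zero_or_pos P.natDegree with hn | hn
  · rw [hn] at hPb
    simp at hPb
  obtain ⟨m, hm⟩ : ∃ m, P.natDegree = m + 1 := ⟨P.natDegree - 1, by omega⟩
  rw [hm] at hPb
  have key : b = -(∑ i ∈ Finset.range (m + 1), P.coeff i * (b⁻¹) ^ (m - i)) := by
    have h1 : (∑ i ∈ Finset.range (m + 1), P.coeff i * b ^ i) * (b⁻¹) ^ m + b = 0 := by
      have h2 : b ^ (m + 1) * (b⁻¹) ^ m = b := by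
        rw [pow_succ, mul_assoc, mul_comm b, ← mul_assoc, ← mul_pow, mul_inv_cancel₀ hb0,
          one_pow, one_mul]
      calc (∑ i ∈ Finset.range (m + 1), P.coeff i * b ^ i) * (b⁻¹) ^ m + b
          = (∑ i ∈ Finset.range (m + 1), P.coeff i * b ^ i + b ^ (m + 1)) * (b⁻¹) ^ m := by
            rw [add_mul, h2]
        _ = 0 := by rw [hPb, zero_mul]
    have h3 : (∑ i ∈ Finset.range (m + 1), P.coeff i * b ^ i) * (b⁻¹) ^ m
        = ∑ i ∈ Finset.range (m + 1), P.coeff i * (b⁻¹) ^ (m - i) := by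
      rw [Finset.sum_mul]
      refine Finset.sum_congr rfl (fun i hi => ?_)
      have hi' : i ≤ m := Nat.lt_succ_iff.1 (Finset.mem_range.1 hi)
      have h4 : b ^ i * (b⁻¹) ^ m = (b⁻¹) ^ (m - i) := by
        conv_lhs => rw [← Nat.sub_add_cancel hi', pow_add]
        rw [mul_comm ((b⁻¹) ^ (m - i)), ← mul_assoc, ← mul_pow, mul_inv_cancel₀ hb0, one_pow,
          one_mul]
      rw [mul_assoc, h4]
    rw [h3] at h1
    exact eq_neg_of_add_eq_zero_right h1
  rw [key]
  refine V.neg_mem (V.sum_mem (fun i _ => V.mul_mem (hc i) (V.pow_mem hinv _)))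

/-- Elementwise integral closedness of a subring `V` that is total on `b`. -/
theorem mem_of_isIntegral_of_total {V : Subring Ω} {b : Ω} (htot : b ∈ V ∨ b⁻¹ ∈ V)
    (hint : IsIntegral V b) : b ∈ V :=
  htot.elim id (fun h => mem_of_isIntegral_of_inv_mem h hint)

/-! ### Explicit integral equations -/

theorem coeff_sum_C_mul_X_pow (n : ℕ) (c : ℕ → Ω) (m : ℕ) :
    (∑ i ∈ Finset.range n, C (c i) * X ^ i : Polynomial Ω).coeff m = if m < n then c m else 0 := by
  rw [finsetSum_coeff]
  simp only [coeff_C_mul_X_pow]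
  split_ifs with hm
  · rw [Finset.sum_eq_single m]
    · simp
    · intro i _ hi
      rw [if_neg (fun h => hi h.symm)]
    · intro h
      exact absurd (Finset.mem_range.2 hm) h
  · refine Finset.sum_eq_zero (fun i hi => ?_)
    rw [if_neg]
    rintro rfl
    exact hm (Finset.mem_range.1 hi)

/-- `b ^ n = ∑_{i<n} c i * b ^ i` with `c i ∈ S` makes `b` integral over `S`. -/
theorem isIntegral_of_pow_eq {S : Subring Ω} {b : Ω} (n : ℕ) (c : ℕ → Ω)
    (hc : ∀ i, i < n → c i ∈ S) (h : b ^ n = ∑ i ∈ Finset.range n, c i * b ^ i) :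
    IsIntegral S b := by
  rw [isIntegral_subring_iff]
  have hdeg : (∑ i ∈ Finset.range n, C (c i) * X ^ i : Polynomial Ω).degree < n := by
    rw [degree_lt_iff_coeff_zero]
    intro m hm
    rw [coeff_sum_C_mul_X_pow, if_neg (not_lt.2 hm)]
  refine ⟨X ^ n - ∑ i ∈ Finset.range n, C (c i) * X ^ i, monic_X_pow_sub hdeg, ?_, ?_⟩
  · intro i
    rw [coeff_sub, coeff_X_pow, coeff_sum_C_mul_X_pow]
    by_cases hi : i < n
    · rw [if_neg (Nat.ne_of_lt hi), if_pos hi, zero_sub]
      exact S.neg_mem (hc i hi)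
    · rw [if_neg hi, sub_zero]
      split_ifs
      · exact S.one_mem
      · exact S.zero_mem
  · rw [eval_sub, eval_pow, eval_X, eval_finsetSum, h, sub_eq_zero]
    refine Finset.sum_congr rfl (fun i _ => ?_)
    simp

theorem isIntegral_of_cubic {S : Subring Ω} {b c₀ c₁ c₂ : Ω} (h₀ : c₀ ∈ S) (h₁ : c₁ ∈ S)
    (h₂ : c₂ ∈ S) (h : b ^ 3 = c₂ * b ^ 2 + c₁ * b + c₀) : IsIntegral S b := by
  refine isIntegral_of_pow_eq 3 (fun i => if i = 0 then c₀ else if i = 1 then c₁ else c₂) ?_ ?_
  · intro i hi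
    interval_cases i <;> simp [*]
  · simp only [Finset.sum_range_succ, Finset.sum_range_zero, h]
    simp
    ring

theorem isIntegral_of_quartic {S : Subring Ω} {b c₀ c₁ c₂ c₃ : Ω} (h₀ : c₀ ∈ S) (h₁ : c₁ ∈ S)
    (h₂ : c₂ ∈ S) (h₃ : c₃ ∈ S) (h : b ^ 4 = c₃ * b ^ 3 + c₂ * b ^ 2 + c₁ * b + c₀) :
    IsIntegral S b := by
  refine isIntegral_of_pow_eq 4
    (fun i => if i = 0 then c₀ else if i = 1 then c₁ else if i = 2 then c₂ else c₃) ?_ ?_
  · intro i hi
    interval_cases i <;> simp [*]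
  · simp only [Finset.sum_range_succ, Finset.sum_range_zero, h]
    simp
    ring

/-- Inverses of powers of a unit numeral. -/
theorem inv_pow_mem {S : Subring Ω} {a : Ω} (ha : a⁻¹ ∈ S) (k : ℕ) : (a ^ k)⁻¹ ∈ S := by
  rw [← inv_pow]
  exact S.pow_mem ha k

end Fermat.Agent.S18.H947
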