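import Fermat.Agent.S18.Alg.Spec
import Fermat.Agent.S18.H947.IntSub

/-!
# S18 / M3-T (helper947): moving the `q`-expansion principle between coordinates

Abstract (Mathlib + `Alg/Spec.lean` definitions `polyRing`, `chart` only).

`qep_move`: from the `q`-expansion principle on BOTH `j`-charts (`R[j]` and `R[j⁻¹]`) to the
`q`-expansion principle on the chart `R[y]`, for any `y` such that

* (A) `y` is integral over `R[j]`;
* (B) `a₁ ∈ R[y]` clears `j` into `R[y]`            (`a₁ ^ k₁ * j ∈ R[y]`);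
* (C) `s ∈ V ∩ Fc`, `s` and `s * y` integral over `R[j⁻¹]`;
* (D) `a₂ ∈ R[y]` clears `j⁻¹` into `R[y]`          (`a₂ ^ k₂ * j⁻¹ ∈ R[y]`);
* (E) `s` is invertible with inverse in `R[y]`;
* (F) `a₁`, `a₂` are coprime in `R[y]`.

Only integrality and coprimality are used (no normality / Krull domain argument).
-/

set_option autoImplicit false

namespace Fermat.Agent.S18.H947

open Fermat.Agent.S18.Alg

variable {Ω : Type*} [Field Ω]

theorem le_polyRing (R : Subring Ω) (x : Ω) : R ≤ polyRing R x := fun _ hr =>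
  Subring.subset_closure (Or.inl hr)

theorem self_mem_polyRing (R : Subring Ω) (x : Ω) : x ∈ polyRing R x :=
  Subring.subset_closure (Or.inr rfl)

theorem polyRing_le {R T : Subring Ω} {x : Ω} (hR : R ≤ T) (hx : x ∈ T) : polyRing R x ≤ T :=
  Subring.closure_le.2 (by
    rintro f (hf | hf)
    · exact hR hf
    · rw [Set.mem_singleton_iff.1 hf]; exact hx)

/-- If `a ∈ T ⊇ R` clears `x` into `T`, then `a` clears all of `R[x]` into `T`. -/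
theorem clears_polyRing {R T : Subring Ω} {a x : Ω} (hR : R ≤ T) (ha : a ∈ T)
    (hx : Clears T a x) : ∀ f ∈ polyRing R x, Clears T a f := by
  refine clears_closure ha ?_
  rintro g (hg | hg)
  · exact Clears.of_mem (hR hg)
  · rw [Set.mem_singleton_iff.1 hg]; exact hx

/-- Coprimality passes to powers (elementwise in a subring). -/
theorem exists_bezout_pow {T : Subring Ω} {a₁ a₂ : Ω} (ha₁ : a₁ ∈ T) (ha₂ : a₂ ∈ T)
    (h : ∃ u ∈ T, ∃ v ∈ T, u * a₁ + v * a₂ = 1) (K₁ K₂ : ℕ) :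
    ∃ u ∈ T, ∃ v ∈ T, u * a₁ ^ K₁ + v * a₂ ^ K₂ = 1 := by
  obtain ⟨u, hu, v, hv, huv⟩ := h
  have hcop : IsCoprime (⟨a₁, ha₁⟩ : T) ⟨a₂, ha₂⟩ :=
    ⟨⟨u, hu⟩, ⟨v, hv⟩, Subtype.ext (by simpa using huv)⟩
  obtain ⟨U, W, hUW⟩ := hcop.pow (m := K₁) (n := K₂)
  refine ⟨U, U.2, W, W.2, ?_⟩
  have := congrArg Subtype.val hUW
  simpa using this

/-- **Moving the `q`-expansion principle** from the two `j`-charts to the chart of `y`. -/
theorem qep_move {Fc : Subfield Ω} {R V : Subring Ω} {w j y : Ω}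
    (hqf : ∀ b ∈ chart Fc R j, b * w⁻¹ ∈ V → b * w⁻¹ ∈ chart Fc R j)
    (hqi : ∀ b ∈ chart Fc R j⁻¹, b * w⁻¹ ∈ V → b * w⁻¹ ∈ chart Fc R j⁻¹)
    (hy : IsIntegral (polyRing R j) y)
    {a₁ a₂ s sinv : Ω} {k₁ k₂ : ℕ}
    (ha₁ : a₁ ∈ polyRing R y) (hB : a₁ ^ k₁ * j ∈ polyRing R y)
    (hsF : s ∈ Fc) (hsV : s ∈ V)
    (hs : IsIntegral (polyRing R j⁻¹) s) (hsy : IsIntegral (polyRing R j⁻¹) (s * y))
    (ha₂ : a₂ ∈ polyRing R y) (hD : a₂ ^ k₂ * j⁻¹ ∈ polyRing R y)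
    (hsinv : sinv ∈ polyRing R y) (hss : sinv * s = 1)
    (hcop : ∃ u ∈ polyRing R y, ∃ v ∈ polyRing R y, u * a₁ + v * a₂ = 1) :
    ∀ b ∈ chart Fc R y, b * w⁻¹ ∈ V → b * w⁻¹ ∈ chart Fc R y := by
  rintro b ⟨hbF, hbint⟩ hbV
  -- first chart
  have hTS₁ : polyRing R y ≤ IC (polyRing R j) :=
    polyRing_le ((le_polyRing R j).trans (le_IC _)) hy
  have hb₁ : b ∈ chart Fc R j := ⟨hbF, IC_le_of_le_IC hTS₁ hbint⟩
  obtain ⟨hcF, hc₁⟩ := hqf b hb₁ hbV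
  obtain ⟨K₁, hK₁⟩ := exists_pow_mul_isIntegral (S := polyRing R y) (S' := polyRing R j) ha₁
    (clears_polyRing (le_polyRing R y) ha₁ ⟨k₁, hB⟩) hc₁
  -- second chart
  have hclr : ∀ f ∈ polyRing R y, Clears (IC (polyRing R j⁻¹)) s f :=
    clears_polyRing ((le_polyRing R j⁻¹).trans (le_IC _)) hs
      ⟨1, by rw [pow_one]; exact mem_IC.2 hsy⟩
  obtain ⟨K, hK⟩ := exists_pow_mul_isIntegral (S := IC (polyRing R j⁻¹)) (S' := polyRing R y) hs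
    hclr hbint
  have hsb : s ^ K * b ∈ chart Fc R j⁻¹ :=
    ⟨Fc.mul_mem (Fc.pow_mem hsF K) hbF, IC_le_of_le_IC (le_refl _) hK⟩
  have hsbV : s ^ K * b * w⁻¹ ∈ V := by
    rw [mul_assoc]
    exact V.mul_mem (V.pow_mem hsV K) hbV
  obtain ⟨-, hc₂⟩ := hqi _ hsb hsbV
  obtain ⟨K₂, hK₂⟩ := exists_pow_mul_isIntegral (S := polyRing R y) (S' := polyRing R j⁻¹) ha₂
    (clears_polyRing (le_polyRing R y) ha₂ ⟨k₂, hD⟩) hc₂
  have hK₂' : IsIntegral (polyRing R y) (a₂ ^ K₂ * (b * w⁻¹)) := by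
    have h1 : a₂ ^ K₂ * (b * w⁻¹) = sinv ^ K * (a₂ ^ K₂ * (s ^ K * b * w⁻¹)) := by
      have h2 : sinv ^ K * s ^ K = 1 := by rw [← mul_pow, hss, one_pow]
      calc a₂ ^ K₂ * (b * w⁻¹) = (sinv ^ K * s ^ K) * (a₂ ^ K₂ * (b * w⁻¹)) := by
            rw [h2, one_mul]
        _ = sinv ^ K * (a₂ ^ K₂ * (s ^ K * b * w⁻¹)) := by ring
    rw [h1]
    exact (IC (polyRing R y)).mul_mem (le_IC _ (Subring.pow_mem _ hsinv K)) hK₂
  -- coprimality
  obtain ⟨u, hu, v, hv, huv⟩ := exists_bezout_pow ha₁ ha₂ hcop K₁ K₂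
  refine ⟨hcF, ?_⟩
  have h3 : b * w⁻¹ = u * (a₁ ^ K₁ * (b * w⁻¹)) + v * (a₂ ^ K₂ * (b * w⁻¹)) := by
    calc b * w⁻¹ = (u * a₁ ^ K₁ + v * a₂ ^ K₂) * (b * w⁻¹) := by rw [huv, one_mul]
      _ = _ := by ring
  rw [h3]
  exact (IC (polyRing R y)).add_mem ((IC _).mul_mem (le_IC _ hu) hK₁)
    ((IC _).mul_mem (le_IC _ hv) hK₂')

end Fermat.Agent.S18.H947
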