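import Fermat.Agent.S18.H947.ChartMove

/-!
# S18 / M3-T (helper947): moving `x_transcendental`, `finite`, `separable` between coordinates

Abstract (Mathlib + `Alg/Spec.lean` definitions only).

* `transcendental_move` : `j` transcendental over `Lc`, `j ∈ Lc(t)`  ⟹  `t` transcendental over `Lc`.
* `finite_move`         : `Fc` is spanned by a finite set over `Ec(j)`, `j ∈ Ec(t)` ⟹ the same
                           over `Ec(t)`.
* `separable_move`      : the field `separable` of `GoodModel` at `j` ⟹ at `t`, if `t` is a unit of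
                           `V` and some power of `t` clears `j` into `R[t]`.
-/

set_option autoImplicit false

namespace Fermat.Agent.S18.H947

open Fermat.Agent.S18.Alg Polynomial

variable {Ω : Type*} [Field Ω]

/-- If `t` is algebraic over the subfield `Lc`, so is every element of `Lc(t)`. -/
theorem isAlgebraic_of_mem_closure {Lc : Subfield Ω} {t : Ω} (ht : IsAlgebraic Lc t) :
    ∀ f ∈ Subfield.closure ((Lc : Set Ω) ∪ {t}), IsAlgebraic Lc f := by
  intro f hf
  induction hf using Subfield.closure_induction with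
  | mem x hx =>
    rcases hx with hx | hx
    · exact isAlgebraic_algebraMap (⟨x, hx⟩ : Lc)
    · rw [Set.mem_singleton_iff.1 hx]; exact ht
  | one => exact isAlgebraic_one
  | add x y _ _ hx hy => exact hx.add hy
  | neg x _ hx => exact hx.neg
  | inv x _ hx => exact hx.inv
  | mul x y _ _ hx hy => exact hx.mul hy

/-- **`x_transcendental` moves**: if `j ∈ Lc(t)` is transcendental over `Lc`, so is `t`. -/
theorem transcendental_move {Lc : Subfield Ω} {j t : Ω} (hj : Transcendental Lc j)
    (hmem : j ∈ Subfield.closure ((Lc : Set Ω) ∪ {t})) : Transcendental Lc t :=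
  fun ht => hj (isAlgebraic_of_mem_closure ht j hmem)

theorem ratField_mono {Ec Ec' : Subfield Ω} (h : Ec ≤ Ec') (x : Ω) :
    ratField Ec x ≤ ratField Ec' x :=
  Subfield.closure_mono (Set.union_subset_union_left _ h)

theorem le_ratField (Ec : Subfield Ω) (x : Ω) : Ec ≤ ratField Ec x := fun _ h =>
  Subfield.subset_closure (Or.inl h)

theorem self_mem_ratField (Ec : Subfield Ω) (x : Ω) : x ∈ ratField Ec x :=
  Subfield.subset_closure (Or.inr rfl)

theorem ratField_le {Ec K : Subfield Ω} {x : Ω} (hE : Ec ≤ K) (hx : x ∈ K) :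
    ratField Ec x ≤ K :=
  Subfield.closure_le.2 (by
    rintro f (hf | hf)
    · exact hE hf
    · rw [Set.mem_singleton_iff.1 hf]; exact hx)

/-- Spans grow with the field of scalars. -/
theorem span_subfield_mono {K K' : Subfield Ω} (h : K ≤ K') (s : Set Ω) {f : Ω}
    (hf : f ∈ Submodule.span K s) : f ∈ Submodule.span K' s := by
  induction hf using Submodule.span_induction with
  | mem x hx => exact Submodule.subset_span hx
  | zero => exact Submodule.zero_mem _
  | add x y _ _ hx hy => exact Submodule.add_mem _ hx hy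
  | smul a x _ hx =>
    have : a • x = (⟨a.1, h a.2⟩ : K') • x := rfl
    rw [this]
    exact Submodule.smul_mem _ _ hx

/-- **`finite` moves**: a finite spanning set of `Fc` over `Ec(j)` also spans over `Ec(t)`,
if `j ∈ Ec(t)`. -/
theorem finite_move {Ec Fc : Subfield Ω} {j t : Ω} (hjt : j ∈ ratField Ec t)
    (h : ∃ s : Finset Ω, (s : Set Ω) ⊆ Fc ∧
      ∀ f ∈ Fc, f ∈ Submodule.span (ratField Ec j) (s : Set Ω)) :
    ∃ s : Finset Ω, (s : Set Ω) ⊆ Fc ∧
      ∀ f ∈ Fc, f ∈ Submodule.span (ratField Ec t) (s : Set Ω) := by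
  obtain ⟨s, hs, hspan⟩ := h
  exact ⟨s, hs, fun f hf =>
    span_subfield_mono (ratField_le (le_ratField Ec t) hjt) _ (hspan f hf)⟩

/-- **`separable` moves**: multiply the polynomial by a power of the unit `t`. -/
theorem separable_move {R V : Subring Ω} {w j t : Ω} (htV : t ∈ V) (htinvV : t⁻¹ ∈ V)
    (ht0 : t ≠ 0) (hclr : Clears (polyRing R t) t j)
    (h : ∀ f ∈ V, ∃ P : Polynomial Ω, (∀ i, P.coeff i ∈ polyRing R j) ∧
      P.eval f * w⁻¹ ∈ V ∧ (Polynomial.derivative P).eval f ≠ 0 ∧
      ((Polynomial.derivative P).eval f)⁻¹ ∈ V) :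
    ∀ f ∈ V, ∃ P : Polynomial Ω, (∀ i, P.coeff i ∈ polyRing R t) ∧
      P.eval f * w⁻¹ ∈ V ∧ (Polynomial.derivative P).eval f ≠ 0 ∧
      ((Polynomial.derivative P).eval f)⁻¹ ∈ V := by
  intro f hf
  obtain ⟨P, hc, hP, hd0, hdV⟩ := h f hf
  obtain ⟨K, hK⟩ := exists_pow_clears_coeffs (self_mem_polyRing R t) P
    (fun i => clears_polyRing (le_polyRing R t) (self_mem_polyRing R t) hclr _ (hc i))
  refine ⟨C (t ^ K) * P, fun i => ?_, ?_, ?_, ?_⟩
  · rw [coeff_C_mul]
    exact hK i
  · rw [eval_mul, eval_C, mul_assoc]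
    exact V.mul_mem (V.pow_mem htV K) hP
  · rw [derivative_C_mul, eval_mul, eval_C]
    exact mul_ne_zero (pow_ne_zero K ht0) hd0
  · rw [derivative_C_mul, eval_mul, eval_C, mul_inv, ← inv_pow]
    exact V.mul_mem (V.pow_mem htinvV K) hdV

end Fermat.Agent.S18.H947
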