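import Fermat.Agent.S18.H947.ChartMove

/-!
# S18 / M3-T (helper947): moving the Gauss property between coordinates

Abstract (Mathlib only).  `R ≤ V` subrings of a field `Ω`, `w ∈ R` with `w⁻¹ ∉ V`,
`w_gen` for `R` and `V_gen` for `V`.

`ResInt R V w f` : "`f` is residually integral": some monic polynomial `P` with coefficients in
`R` has `P(f) ∈ w V`.  (For `f ∈ V`: the class of `f` in `V / w V` is integral over `R`.)

* `resInt_closure`  : residually integral elements of `V` are closed under ring operations.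
* `resInt_of_unit_coeff` : a polynomial relation with ONE unit coefficient suffices.
* `resInt_inv`      : if `t`, `τ ∈ V`, `t * τ = 1` and `t` is residually integral, so is `τ`.
* `gauss_move`      : the field `gauss` of `GoodModel` at `j` ⟹ at `t`, if `t`, `τ = t⁻¹ ∈ V` and
                       `j ∈ R[t, τ]`.
-/

set_option autoImplicit false

namespace Fermat.Agent.S18.H947

open Polynomial

variable {Ω : Type*} [Field Ω]

/-- `f` is residually integral over `R`: a monic polynomial over `R` maps `f` into `w V`. -/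
def ResInt (R V : Subring Ω) (w f : Ω) : Prop :=
  ∃ P : Polynomial Ω, P.Monic ∧ (∀ i, P.coeff i ∈ R) ∧ P.eval f * w⁻¹ ∈ V

section Res

variable {R V : Subring Ω} {w : Ω}

/-- The ideal `w V` of `V`. -/
def wIdeal (V : Subring Ω) (w : Ω) (hw : w ∈ V) : Ideal V := Ideal.span {(⟨w, hw⟩ : V)}

theorem mem_wIdeal_iff (hw : w ∈ V) (hw0 : w ≠ 0) (v : V) :
    v ∈ wIdeal V w hw ↔ (v : Ω) * w⁻¹ ∈ V := by
  rw [wIdeal, Ideal.mem_span_singleton]
  constructor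
  · rintro ⟨c, hc⟩
    have h1 : (v : Ω) = w * c := by
      have := congrArg Subtype.val hc
      simpa using this
    rw [h1, mul_comm w, mul_assoc, mul_inv_cancel₀ hw0, mul_one]
    exact c.2
  · intro h
    refine ⟨⟨(v : Ω) * w⁻¹, h⟩, Subtype.ext ?_⟩
    simp only [Subring.coe_mul]
    rw [mul_comm (v : Ω), ← mul_assoc, mul_inv_cancel₀ hw0, one_mul]

/-- The ring homomorphism `R → V / w V`. -/
def resMap (hRV : R ≤ V) (hw : w ∈ V) : R →+* (V ⧸ wIdeal V w hw) :=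
  (Ideal.Quotient.mk (wIdeal V w hw)).comp (Subring.inclusion hRV)

theorem coe_eval₂_inclusion (hRV : R ≤ V) (p : Polynomial R) (f : V) :
    ((p.eval₂ (Subring.inclusion hRV) f : V) : Ω) = (p.map R.subtype).eval (f : Ω) := by
  have h1 := hom_eval₂ p (Subring.inclusion hRV) V.subtype f
  rw [eval_map]
  exact h1

theorem eval₂_resMap_eq_zero_iff (hRV : R ≤ V) (hw : w ∈ V) (hw0 : w ≠ 0) (p : Polynomial R)
    (f : V) :
    p.eval₂ (resMap hRV hw) (Ideal.Quotient.mk (wIdeal V w hw) f) = 0 ↔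
      (p.map R.subtype).eval (f : Ω) * w⁻¹ ∈ V := by
  have h1 := hom_eval₂ p (Subring.inclusion hRV) (Ideal.Quotient.mk (wIdeal V w hw)) f
  rw [resMap, ← h1, Ideal.Quotient.eq_zero_iff_mem, mem_wIdeal_iff hw hw0, coe_eval₂_inclusion]

theorem resInt_iff (hRV : R ≤ V) (hw : w ∈ V) (hw0 : w ≠ 0) (f : V) :
    ResInt R V w (f : Ω) ↔
      (resMap hRV hw).IsIntegralElem (Ideal.Quotient.mk (wIdeal V w hw) f) := by
  constructor
  · rintro ⟨P, hP, hc, hPf⟩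
    have hcs : (↑P.coeffs : Set Ω) ⊆ R := by
      intro a ha
      obtain ⟨n, -, rfl⟩ := mem_coeffs_iff.1 ha
      exact hc n
    refine ⟨P.toSubring R hcs, (monic_toSubring P R hcs).2 hP, ?_⟩
    rw [eval₂_resMap_eq_zero_iff hRV hw hw0]
    have : (P.toSubring R hcs).map R.subtype = P := map_toSubring P R hcs
    rw [this]
    exact hPf
  · rintro ⟨p, hp, hpf⟩
    rw [eval₂_resMap_eq_zero_iff hRV hw hw0] at hpf
    refine ⟨p.map R.subtype, hp.map _, fun i => ?_, hpf⟩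
    rw [coeff_map]
    exact (p.coeff i).2

theorem resInt_of_mem (hRV : R ≤ V) (hw : w ∈ V) (hw0 : w ≠ 0) {r : Ω} (hr : r ∈ R) :
    ResInt R V w r := by
  have := (resInt_iff hRV hw hw0 ⟨r, hRV hr⟩).2
    (RingHom.isIntegralElem_map (f := resMap hRV hw) (x := ⟨r, hr⟩))
  exact this

theorem resInt_add (hRV : R ≤ V) (hw : w ∈ V) (hw0 : w ≠ 0) {f g : Ω} (hf : f ∈ V) (hg : g ∈ V)
    (h₁ : ResInt R V w f) (h₂ : ResInt R V w g) : ResInt R V w (f + g) := by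
  have h₁' := (resInt_iff hRV hw hw0 ⟨f, hf⟩).1 h₁
  have h₂' := (resInt_iff hRV hw hw0 ⟨g, hg⟩).1 h₂
  have := (resInt_iff hRV hw hw0 (⟨f, hf⟩ + ⟨g, hg⟩)).2 (by
    rw [map_add]
    exact RingHom.IsIntegralElem.add _ h₁' h₂')
  exact this

theorem resInt_mul (hRV : R ≤ V) (hw : w ∈ V) (hw0 : w ≠ 0) {f g : Ω} (hf : f ∈ V) (hg : g ∈ V)
    (h₁ : ResInt R V w f) (h₂ : ResInt R V w g) : ResInt R V w (f * g) := by
  have h₁' := (resInt_iff hRV hw hw0 ⟨f, hf⟩).1 h₁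
  have h₂' := (resInt_iff hRV hw hw0 ⟨g, hg⟩).1 h₂
  have := (resInt_iff hRV hw hw0 (⟨f, hf⟩ * ⟨g, hg⟩)).2 (by
    rw [map_mul]
    exact RingHom.IsIntegralElem.mul _ h₁' h₂')
  exact this

theorem resInt_neg (hRV : R ≤ V) (hw : w ∈ V) (hw0 : w ≠ 0) {f : Ω} (hf : f ∈ V)
    (h₁ : ResInt R V w f) : ResInt R V w (-f) := by
  have h₁' := (resInt_iff hRV hw hw0 ⟨f, hf⟩).1 h₁
  have := (resInt_iff hRV hw hw0 (-⟨f, hf⟩)).2 (by
    rw [map_neg]
    exact RingHom.IsIntegralElem.neg _ h₁')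
  exact this

/-- Residually integral elements of `V` are closed under ring operations. -/
theorem resInt_closure (hRV : R ≤ V) (hw : w ∈ V) (hw0 : w ≠ 0) {G : Set Ω}
    (hG : ∀ g ∈ G, g ∈ V ∧ ResInt R V w g) :
    ∀ f ∈ Subring.closure G, f ∈ V ∧ ResInt R V w f := by
  intro f hf
  induction hf using Subring.closure_induction with
  | mem x hx => exact hG x hx
  | zero => exact ⟨V.zero_mem, resInt_of_mem hRV hw hw0 R.zero_mem⟩
  | one => exact ⟨V.one_mem, resInt_of_mem hRV hw hw0 R.one_mem⟩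
  | add x y _ _ hx hy =>
    exact ⟨V.add_mem hx.1 hy.1, resInt_add hRV hw hw0 hx.1 hy.1 hx.2 hy.2⟩
  | neg x _ hx => exact ⟨V.neg_mem hx.1, resInt_neg hRV hw hw0 hx.1 hx.2⟩
  | mul x y _ _ hx hy =>
    exact ⟨V.mul_mem hx.1 hy.1, resInt_mul hRV hw hw0 hx.1 hy.1 hx.2 hy.2⟩

theorem resMap_ne_zero_of_unit (hRV : R ≤ V) (hw : w ∈ V) (hw0 : w ≠ 0) (hwinv : w⁻¹ ∉ V)
    {r : R} (hr0 : (r : Ω) ≠ 0) (hr : (r : Ω)⁻¹ ∈ R) : resMap hRV hw r ≠ 0 := by
  intro h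
  have h1 : resMap hRV hw (r * ⟨(r : Ω)⁻¹, hr⟩) = 0 := by rw [map_mul, h, zero_mul]
  have h2 : r * ⟨(r : Ω)⁻¹, hr⟩ = 1 := Subtype.ext (by simpa using mul_inv_cancel₀ hr0)
  rw [h2, map_one] at h1
  have h3 : (1 : V) ∈ wIdeal V w hw := by
    rw [← Ideal.Quotient.eq_zero_iff_mem]
    simpa using h1
  rw [mem_wIdeal_iff hw hw0] at h3
  apply hwinv
  simpa using h3

theorem unit_of_resMap_ne_zero (hRV : R ≤ V) (hw : w ∈ V) (hw0 : w ≠ 0)
    (hRgen : ∀ r ∈ R, r⁻¹ ∉ R → r * w⁻¹ ∈ R) {r : R} (hr : resMap hRV hw r ≠ 0) :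
    (r : Ω) ≠ 0 ∧ (r : Ω)⁻¹ ∈ R := by
  constructor
  · intro h0
    apply hr
    have : r = 0 := Subtype.ext h0
    rw [this, map_zero]
  · by_contra hinv
    apply hr
    have h1 : (r : Ω) * w⁻¹ ∈ V := hRV (hRgen r r.2 hinv)
    have h2 : Subring.inclusion hRV r ∈ wIdeal V w hw := (mem_wIdeal_iff hw hw0 _).2 h1
    exact Ideal.Quotient.eq_zero_iff_mem.2 h2

/-- In `V / w V`: a root of a polynomial over `R` that is nonzero modulo `w` is integral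
over `R`. -/
theorem isIntegralElem_of_root (hRV : R ≤ V) (hw : w ∈ V) (hw0 : w ≠ 0)
    (hRgen : ∀ r ∈ R, r⁻¹ ∉ R → r * w⁻¹ ∈ R) (p : Polynomial R)
    (hp : p.map (resMap hRV hw) ≠ 0) (x : V ⧸ wIdeal V w hw)
    (hx : p.eval₂ (resMap hRV hw) x = 0) : (resMap hRV hw).IsIntegralElem x := by
  set φ := resMap hRV hw with hφ
  set d := (p.map φ).natDegree with hd
  have hlc : φ (p.coeff d) ≠ 0 := by
    have := leadingCoeff_ne_zero.2 hp
    rwa [leadingCoeff, coeff_map] at this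
  obtain ⟨hc0, hcinv⟩ := unit_of_resMap_ne_zero hRV hw hw0 hRgen hlc
  set u : R := ⟨((p.coeff d : R) : Ω)⁻¹, hcinv⟩ with hu
  have hu1 : u * p.coeff d = 1 := Subtype.ext (by simpa [hu] using inv_mul_cancel₀ hc0)
  have hmonic : ((C u * p).map φ).Monic := by
    refine monic_of_natDegree_le_of_coeff_eq_one d ?_ ?_
    · rw [Polynomial.map_mul, map_C]
      exact (natDegree_C_mul_le _ _).trans (le_of_eq hd.symm)
    · rw [coeff_map, coeff_C_mul, hu1, map_one]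
  obtain ⟨q, hq, -, hqm⟩ :=
    lifts_and_natDegree_eq_and_monic (f := φ) (p := (C u * p).map φ)
      ((mem_lifts _).2 ⟨C u * p, rfl⟩) hmonic
  refine ⟨q, hqm, ?_⟩
  rw [← eval_map, hq, eval_map, eval₂_mul, hx, mul_zero]

/-- **One unit coefficient suffices.** -/
theorem resInt_of_unit_coeff (hRV : R ≤ V) (hw : w ∈ V) (hw0 : w ≠ 0) (hwinv : w⁻¹ ∉ V)
    (hRgen : ∀ r ∈ R, r⁻¹ ∉ R → r * w⁻¹ ∈ R) {f : Ω} (hf : f ∈ V) (P : Polynomial Ω)
    (hc : ∀ i, P.coeff i ∈ R) (hu : ∃ i, P.coeff i ≠ 0 ∧ (P.coeff i)⁻¹ ∈ R)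
    (hPf : P.eval f * w⁻¹ ∈ V) : ResInt R V w f := by
  have hcs : (↑P.coeffs : Set Ω) ⊆ R := by
    intro a ha
    obtain ⟨n, -, rfl⟩ := mem_coeffs_iff.1 ha
    exact hc n
  have hmap : (P.toSubring R hcs).map R.subtype = P := map_toSubring P R hcs
  rw [show f = ((⟨f, hf⟩ : V) : Ω) from rfl, resInt_iff hRV hw hw0]
  refine isIntegralElem_of_root hRV hw hw0 hRgen (P.toSubring R hcs) ?_ _ ?_
  · obtain ⟨i, hi0, hiinv⟩ := hu
    intro h0
    have h1 : resMap hRV hw ((P.toSubring R hcs).coeff i) = 0 := by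
      rw [← coeff_map, h0, coeff_zero]
    have hci : (((P.toSubring R hcs).coeff i : R) : Ω) = P.coeff i := coeff_toSubring P R hcs
    exact resMap_ne_zero_of_unit hRV hw hw0 hwinv (by rw [hci]; exact hi0)
      (by rw [hci]; exact hiinv) h1
  · rw [eval₂_resMap_eq_zero_iff hRV hw hw0, hmap]
    exact hPf

/-- If `t τ = 1` in `V` and `t` is residually integral, then so is `τ`. -/
theorem resInt_inv (hRV : R ≤ V) (hw : w ∈ V) (hw0 : w ≠ 0) (hwinv : w⁻¹ ∉ V)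
    (hRgen : ∀ r ∈ R, r⁻¹ ∉ R → r * w⁻¹ ∈ R) {t τ : Ω} (ht : t ∈ V) (hτ : τ ∈ V)
    (htτ : t * τ = 1) (h : ResInt R V w t) : ResInt R V w τ := by
  rw [show t = ((⟨t, ht⟩ : V) : Ω) from rfl, resInt_iff hRV hw hw0] at h
  rw [show τ = ((⟨τ, hτ⟩ : V) : Ω) from rfl, resInt_iff hRV hw hw0]
  obtain ⟨p, hp, hpt⟩ := h
  set φ := resMap hRV hw with hφ
  set x := Ideal.Quotient.mk (wIdeal V w hw) ⟨t, ht⟩ with hx
  set y := Ideal.Quotient.mk (wIdeal V w hw) ⟨τ, hτ⟩ with hy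
  have hxy : x * y = 1 := by
    rw [hx, hy, ← map_mul]
    have : (⟨t, ht⟩ : V) * ⟨τ, hτ⟩ = 1 := Subtype.ext (by simpa using htτ)
    rw [this, map_one]
  let _ : Invertible x := ⟨y, by rw [mul_comm]; exact hxy, hxy⟩
  have hrev : eval₂ φ y (reverse p) = 0 :=
    (eval₂_reverse_eq_zero_iff φ x p).2 hpt
  refine isIntegralElem_of_root hRV hw hw0 hRgen (reverse p) ?_ y hrev
  intro h0
  have h1 : φ ((reverse p).coeff 0) = 0 := by rw [← coeff_map, h0, coeff_zero]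
  rw [coeff_zero_reverse, hp.leadingCoeff, map_one] at h1
  have h3 : (1 : V) ∈ wIdeal V w hw := by
    rw [← Ideal.Quotient.eq_zero_iff_mem]
    simpa using h1
  rw [mem_wIdeal_iff hw hw0] at h3
  apply hwinv
  simpa using h3

end Res

section Gauss

variable {R V : Subring Ω} {w j t τ : Ω}

/-- A polynomial with coefficients in `V` takes values in `V` on `V`. -/
theorem eval_mem_of_coeff_mem {V : Subring Ω} {f : Ω} (hf : f ∈ V) (P : Polynomial Ω)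
    (hc : ∀ i, P.coeff i ∈ V) : P.eval f ∈ V := by
  rw [eval_eq_sum_range]
  exact V.sum_mem (fun i _ => V.mul_mem (hc i) (V.pow_mem hf i))

/-- `gauss` at `j` (plus `P(j) ≠ 0` for monic `P` over `R`) forbids `j` from being residually
integral. -/
theorem not_resInt_of_gauss (hwinv : w⁻¹ ∉ V)
    (hgauss : ∀ P : Polynomial Ω, (∀ i, P.coeff i ∈ R) →
      (∃ i, P.coeff i ≠ 0 ∧ (P.coeff i)⁻¹ ∈ R) → (P.eval j)⁻¹ ∈ V)
    (hne : ∀ P : Polynomial Ω, P.Monic → (∀ i, P.coeff i ∈ R) → P.eval j ≠ 0) :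
    ¬ ResInt R V w j := by
  rintro ⟨P, hP, hc, hPj⟩
  have h1 : (P.eval j)⁻¹ ∈ V := hgauss P hc ⟨P.natDegree, by
    rw [hP.coeff_natDegree]
    exact ⟨one_ne_zero, by simp⟩⟩
  apply hwinv
  have h2 : w⁻¹ = (P.eval j * w⁻¹) * (P.eval j)⁻¹ := by
    rw [mul_comm (P.eval j), mul_assoc, mul_inv_cancel₀ (hne P hP hc), mul_one]
  rw [h2]
  exact V.mul_mem hPj h1

/-- **`gauss` moves** from `j` to `t`, if `t, τ ∈ V`, `t τ = 1` and `j ∈ R[t, τ]`. -/
theorem gauss_move (hRV : R ≤ V) (hw : w ∈ V) (hw0 : w ≠ 0) (hwinv : w⁻¹ ∉ V)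
    (hRgen : ∀ r ∈ R, r⁻¹ ∉ R → r * w⁻¹ ∈ R) (hVgen : ∀ f ∈ V, f⁻¹ ∉ V → f * w⁻¹ ∈ V)
    (hgauss : ∀ P : Polynomial Ω, (∀ i, P.coeff i ∈ R) →
      (∃ i, P.coeff i ≠ 0 ∧ (P.coeff i)⁻¹ ∈ R) → (P.eval j)⁻¹ ∈ V)
    (hne : ∀ P : Polynomial Ω, P.Monic → (∀ i, P.coeff i ∈ R) → P.eval j ≠ 0)
    (ht : t ∈ V) (hτ : τ ∈ V) (htτ : t * τ = 1)
    (hj : j ∈ Subring.closure ((R : Set Ω) ∪ {t, τ})) :
    ∀ P : Polynomial Ω, (∀ i, P.coeff i ∈ R) →
      (∃ i, P.coeff i ≠ 0 ∧ (P.coeff i)⁻¹ ∈ R) → (P.eval t)⁻¹ ∈ V := by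
  intro P hc hu
  by_contra hinv
  have hPV : P.eval t ∈ V := eval_mem_of_coeff_mem ht P (fun i => hRV (hc i))
  have hPw : P.eval t * w⁻¹ ∈ V := hVgen _ hPV hinv
  have h1 : ResInt R V w t := resInt_of_unit_coeff hRV hw hw0 hwinv hRgen ht P hc hu hPw
  have h2 : ResInt R V w τ := resInt_inv hRV hw hw0 hwinv hRgen ht hτ htτ h1
  have h3 := resInt_closure hRV hw hw0 (G := (R : Set Ω) ∪ {t, τ}) (by
    rintro g (hg | hg | hg)
    · exact ⟨hRV hg, resInt_of_mem hRV hw hw0 hg⟩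
    · rw [hg]; exact ⟨ht, h1⟩
    · rw [Set.mem_singleton_iff.1 hg]; exact ⟨hτ, h2⟩) j hj
  exact not_resInt_of_gauss hwinv hgauss hne h3.2

/-- Nonvanishing of polynomials at a transcendental element. -/
theorem eval_ne_zero_of_transcendental {Lc : Subfield Ω} {j : Ω} (hj : Transcendental Lc j)
    (P : Polynomial Ω) (hP : P ≠ 0) (hc : ∀ i, P.coeff i ∈ Lc) : P.eval j ≠ 0 := by
  intro h0
  have hl : P ∈ lifts (algebraMap Lc Ω) :=
    (lifts_iff_coeff_lifts P).2 (fun i => ⟨⟨P.coeff i, hc i⟩, rfl⟩)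
  obtain ⟨p, hp⟩ := (mem_lifts P).1 hl
  apply hj
  refine ⟨p, ?_, ?_⟩
  · rintro rfl
    apply hP
    rw [← hp, Polynomial.map_zero]
  · rw [aeval_def, ← eval_map, hp]
    exact h0

end Gauss

end Fermat.Agent.S18.H947
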