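import Fermat.Agent.S18.H947.ChartMove

/-!
# S18 / M3-T (helper947): the `q`-expansion principle for the Hauptmodul `t₃`

Abstract.  `j * t ^ 3 = (t + 27) * (t + 243) ^ 3`, `3` a unit of `R`.  From `qep_fin`, `qep_inf`
for the coordinate `j` we deduce `qep_fin`, `qep_inf` for the coordinate `t`
(`three_qep_fin`, `three_qep_inf`).  Also: `t`, `t⁻¹` are integral over `R[j]`.
-/

set_option autoImplicit false

namespace Fermat.Agent.S18.H947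

open Fermat.Agent.S18.Alg

variable {Ω : Type*} [Field Ω]

section Three

variable {Fc : Subfield Ω} {R V : Subring Ω} {w j t : Ω}

theorem three_t_ne_zero (h3 : (3 : Ω) ≠ 0) (hrel : j * t ^ 3 = (t + 27) * (t + 243) ^ 3) :
    t ≠ 0 := by
  rintro rfl
  have h1 : (3 : Ω) ^ 18 = 0 := by
    have h2 : (3 : Ω) ^ 18 = (0 + 27) * (0 + 243) ^ 3 := by norm_num
    rw [h2, ← hrel]
    simp
  exact h3 (pow_eq_zero_iff (by norm_num)|>.1 h1)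

theorem three_t_add_ne_zero (h3 : (3 : Ω) ≠ 0) (hj0 : j ≠ 0)
    (hrel : j * t ^ 3 = (t + 27) * (t + 243) ^ 3) : t + 27 ≠ 0 := by
  intro h
  have ht := three_t_ne_zero h3 hrel
  rw [h] at hrel
  have h1 : j * t ^ 3 = 0 := by simpa using hrel
  rcases mul_eq_zero.1 h1 with h4 | h4
  · exact hj0 h4
  · exact ht (pow_eq_zero_iff (by norm_num)|>.1 h4)

theorem three_t_add_ne_zero' (h3 : (3 : Ω) ≠ 0) (hj0 : j ≠ 0)
    (hrel : j * t ^ 3 = (t + 27) * (t + 243) ^ 3) : t + 243 ≠ 0 := by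
  intro h
  have ht := three_t_ne_zero h3 hrel
  rw [h] at hrel
  have h1 : j * t ^ 3 = 0 := by simpa using hrel
  rcases mul_eq_zero.1 h1 with h4 | h4
  · exact hj0 h4
  · exact ht (pow_eq_zero_iff (by norm_num)|>.1 h4)

theorem three_j_eq (h3 : (3 : Ω) ≠ 0) (hrel : j * t ^ 3 = (t + 27) * (t + 243) ^ 3) :
    j = (t + 27) * (t + 243) ^ 3 / t ^ 3 := by
  have ht := three_t_ne_zero h3 hrel
  field_simp
  exact hrel

/-- `t` is integral over `R[j]`. -/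
theorem three_isIntegral_t (hrel : j * t ^ 3 = (t + 27) * (t + 243) ^ 3) :
    IsIntegral (polyRing R j) t := by
  refine isIntegral_of_quartic (c₀ := -387420489) (c₁ := -19131876) (c₂ := -196830)
    (c₃ := j - 756) ?_ ?_ ?_ ?_ ?_
  · exact Subring.neg_mem _ (ofNat_mem _ _)
  · exact Subring.neg_mem _ (ofNat_mem _ _)
  · exact Subring.neg_mem _ (ofNat_mem _ _)
  · exact Subring.sub_mem _ (self_mem_polyRing R j) (ofNat_mem _ _)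
  · linear_combination (-1 : Ω) * hrel

/-- `t⁻¹` is integral over `R[j]`. -/
theorem three_isIntegral_tinv (h3 : (3 : Ω) ≠ 0) (h3R : (3 : Ω)⁻¹ ∈ R)
    (hrel : j * t ^ 3 = (t + 27) * (t + 243) ^ 3) : IsIntegral (polyRing R j) t⁻¹ := by
  have ht := three_t_ne_zero h3 hrel
  have hu : ((3 : Ω) ^ 18)⁻¹ ∈ polyRing R j := le_polyRing R j (inv_pow_mem h3R 18)
  refine isIntegral_of_quartic (c₀ := -((3 : Ω) ^ 18)⁻¹)
    (c₁ := ((3 : Ω) ^ 18)⁻¹ * (j - 756)) (c₂ := -(((3 : Ω) ^ 18)⁻¹ * 196830))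
    (c₃ := -(((3 : Ω) ^ 18)⁻¹ * 19131876)) ?_ ?_ ?_ ?_ ?_
  · exact Subring.neg_mem _ hu
  · exact Subring.mul_mem _ hu (Subring.sub_mem _ (self_mem_polyRing R j) (ofNat_mem _ _))
  · exact Subring.neg_mem _ (Subring.mul_mem _ hu (ofNat_mem _ _))
  · exact Subring.neg_mem _ (Subring.mul_mem _ hu (ofNat_mem _ _))
  · rw [three_j_eq h3 hrel]
    field_simp
    ring

/-- `s = (t + 27)⁻¹` is integral over `R[j⁻¹]`. -/
theorem three_isIntegral_s (h3 : (3 : Ω) ≠ 0) (h3R : (3 : Ω)⁻¹ ∈ R) (hj0 : j ≠ 0)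
    (hrel : j * t ^ 3 = (t + 27) * (t + 243) ^ 3) : IsIntegral (polyRing R j⁻¹) (t + 27)⁻¹ := by
  have ht := three_t_ne_zero h3 hrel
  have ht' := three_t_add_ne_zero h3 hj0 hrel
  have ht'' := three_t_add_ne_zero' h3 hj0 hrel
  have hu : ((3 : Ω) ^ 9)⁻¹ ∈ polyRing R j⁻¹ := le_polyRing R j⁻¹ (inv_pow_mem h3R 9)
  have hji : j⁻¹ ∈ polyRing R j⁻¹ := self_mem_polyRing R j⁻¹
  refine isIntegral_of_quartic (c₀ := -(((3 : Ω) ^ 9)⁻¹ * j⁻¹))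
    (c₁ := ((3 : Ω) ^ 9)⁻¹ * (1 - 648 * j⁻¹)) (c₂ := -(((3 : Ω) ^ 9)⁻¹ * (81 + 139968 * j⁻¹)))
    (c₃ := ((3 : Ω) ^ 9)⁻¹ * (2187 - 10077696 * j⁻¹)) ?_ ?_ ?_ ?_ ?_
  · exact Subring.neg_mem _ (Subring.mul_mem _ hu hji)
  · exact Subring.mul_mem _ hu (Subring.sub_mem _ (Subring.one_mem _)
      (Subring.mul_mem _ (ofNat_mem _ _) hji))
  · exact Subring.neg_mem _ (Subring.mul_mem _ hu (Subring.add_mem _ (ofNat_mem _ _)
      (Subring.mul_mem _ (ofNat_mem _ _) hji)))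
  · exact Subring.mul_mem _ hu (Subring.sub_mem _ (ofNat_mem _ _)
      (Subring.mul_mem _ (ofNat_mem _ _) hji))
  · rw [three_j_eq h3 hrel]
    field_simp
    ring

/-- `s = (t + 27)⁻¹` lies in `V`. -/
theorem three_s_mem_V (h3 : (3 : Ω) ≠ 0) (h3R : (3 : Ω)⁻¹ ∈ R) (hj0 : j ≠ 0)
    (hrel : j * t ^ 3 = (t + 27) * (t + 243) ^ 3) (hRV : R ≤ V)
    (hVtot : ∀ f ∈ Fc, f ∈ V ∨ f⁻¹ ∈ V) (htF : t ∈ Fc) (hjinvV : j⁻¹ ∈ V) :
    (t + 27)⁻¹ ∈ V := by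
  have hsF : (t + 27)⁻¹ ∈ Fc := Fc.inv_mem (Fc.add_mem htF (ofNat_mem _ _))
  exact mem_of_isIntegral_of_total (hVtot _ hsF)
    (isIntegral_mono (polyRing_le hRV hjinvV) (three_isIntegral_s h3 h3R hj0 hrel))

/-- **`qep_fin` for `t₃`.** -/
theorem three_qep_fin (h3 : (3 : Ω) ≠ 0) (h3R : (3 : Ω)⁻¹ ∈ R) (hj0 : j ≠ 0)
    (hrel : j * t ^ 3 = (t + 27) * (t + 243) ^ 3) (hRV : R ≤ V)
    (hVtot : ∀ f ∈ Fc, f ∈ V ∨ f⁻¹ ∈ V) (htF : t ∈ Fc) (hjinvV : j⁻¹ ∈ V)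
    (hqf : ∀ b ∈ chart Fc R j, b * w⁻¹ ∈ V → b * w⁻¹ ∈ chart Fc R j)
    (hqi : ∀ b ∈ chart Fc R j⁻¹, b * w⁻¹ ∈ V → b * w⁻¹ ∈ chart Fc R j⁻¹) :
    ∀ b ∈ chart Fc R t, b * w⁻¹ ∈ V → b * w⁻¹ ∈ chart Fc R t := by
  have ht := three_t_ne_zero h3 hrel
  have ht' := three_t_add_ne_zero h3 hj0 hrel
  have ht'' := three_t_add_ne_zero' h3 hj0 hrel
  have hs := three_isIntegral_s (R := R) h3 h3R hj0 hrel
  have hsF : (t + 27)⁻¹ ∈ Fc := Fc.inv_mem (Fc.add_mem htF (ofNat_mem _ _))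
  have hsV := three_s_mem_V h3 h3R hj0 hrel hRV hVtot htF hjinvV
  have hx : t ∈ polyRing R t := self_mem_polyRing R t
  have hT : t + 27 ∈ polyRing R t := Subring.add_mem _ hx (ofNat_mem _ _)
  have hT' : t + 243 ∈ polyRing R t := Subring.add_mem _ hx (ofNat_mem _ _)
  have hu : ((3 : Ω) ^ 8)⁻¹ ∈ polyRing R t := le_polyRing R t (inv_pow_mem h3R 8)
  refine qep_move hqf hqi (three_isIntegral_t hrel) (a₁ := t) (a₂ := (t + 27) * (t + 243))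
    (s := (t + 27)⁻¹) (sinv := t + 27) (k₁ := 3) (k₂ := 3) hx ?_ hsF hsV hs ?_
    (Subring.mul_mem _ hT hT') ?_ hT ?_ ?_
  · rw [mul_comm, hrel]
    exact Subring.mul_mem _ hT (Subring.pow_mem _ hT' 3)
  · have h1 : (t + 27)⁻¹ * t = 1 - 27 * (t + 27)⁻¹ := by
      field_simp
      ring
    rw [h1]
    exact (IC _).sub_mem (IC _).one_mem ((IC _).mul_mem (ofNat_mem _ _) hs)
  · have h1 : ((t + 27) * (t + 243)) ^ 3 * j⁻¹ = (t + 27) ^ 2 * t ^ 3 := by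
      rw [three_j_eq h3 hrel]
      field_simp
    rw [h1]
    exact Subring.mul_mem _ (Subring.pow_mem _ hT 2) (Subring.pow_mem _ hx 3)
  · exact mul_inv_cancel₀ ht'
  · refine ⟨-(((3 : Ω) ^ 8)⁻¹ * (t + 270)), Subring.neg_mem _ (Subring.mul_mem _ hu
      (Subring.add_mem _ hx (ofNat_mem _ _))), ((3 : Ω) ^ 8)⁻¹, hu, ?_⟩
    field_simp
    ring

/-- **`qep_inf` for `t₃`.** -/
theorem three_qep_inf (h3 : (3 : Ω) ≠ 0) (h3R : (3 : Ω)⁻¹ ∈ R) (hj0 : j ≠ 0)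
    (hrel : j * t ^ 3 = (t + 27) * (t + 243) ^ 3) (hRV : R ≤ V)
    (hVtot : ∀ f ∈ Fc, f ∈ V ∨ f⁻¹ ∈ V) (htF : t ∈ Fc) (hjinvV : j⁻¹ ∈ V)
    (hqf : ∀ b ∈ chart Fc R j, b * w⁻¹ ∈ V → b * w⁻¹ ∈ chart Fc R j)
    (hqi : ∀ b ∈ chart Fc R j⁻¹, b * w⁻¹ ∈ V → b * w⁻¹ ∈ chart Fc R j⁻¹) :
    ∀ b ∈ chart Fc R t⁻¹, b * w⁻¹ ∈ V → b * w⁻¹ ∈ chart Fc R t⁻¹ := by
  have ht := three_t_ne_zero h3 hrel
  have ht' := three_t_add_ne_zero h3 hj0 hrel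
  have ht'' := three_t_add_ne_zero' h3 hj0 hrel
  have hs := three_isIntegral_s (R := R) h3 h3R hj0 hrel
  have hsV := three_s_mem_V h3 h3R hj0 hrel hRV hVtot htF hjinvV
  have hx : t⁻¹ ∈ polyRing R t⁻¹ := self_mem_polyRing R t⁻¹
  have hT : 1 + 27 * t⁻¹ ∈ polyRing R t⁻¹ :=
    Subring.add_mem _ (Subring.one_mem _) (Subring.mul_mem _ (ofNat_mem _ _) hx)
  have hT' : 1 + 243 * t⁻¹ ∈ polyRing R t⁻¹ :=
    Subring.add_mem _ (Subring.one_mem _) (Subring.mul_mem _ (ofNat_mem _ _) hx)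
  have hne : 1 + 27 * t⁻¹ ≠ 0 := by
    have h1 : 1 + 27 * t⁻¹ = (t + 27) * t⁻¹ := by
      field_simp
    rw [h1]
    exact mul_ne_zero ht' (inv_ne_zero ht)
  have hne' : 1 + 243 * t⁻¹ ≠ 0 := by
    have h1 : 1 + 243 * t⁻¹ = (t + 243) * t⁻¹ := by
      field_simp
    rw [h1]
    exact mul_ne_zero ht'' (inv_ne_zero ht)
  have hs1 : (1 + 27 * t⁻¹)⁻¹ = 1 - 27 * (t + 27)⁻¹ := by
    field_simp
    ring
  have hs1int : IsIntegral (polyRing R j⁻¹) (1 + 27 * t⁻¹)⁻¹ := by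
    rw [hs1]
    exact (IC _).sub_mem (IC _).one_mem ((IC _).mul_mem (ofNat_mem _ _) hs)
  refine qep_move hqf hqi (three_isIntegral_tinv h3 h3R hrel) (a₁ := t⁻¹)
    (a₂ := (1 + 27 * t⁻¹) * (1 + 243 * t⁻¹))
    (s := (1 + 27 * t⁻¹)⁻¹) (sinv := 1 + 27 * t⁻¹) (k₁ := 1) (k₂ := 3) hx ?_ ?_ ?_ hs1int ?_
    (Subring.mul_mem _ hT hT') ?_ hT ?_ ?_
  · have h1 : t⁻¹ ^ 1 * j = (1 + 27 * t⁻¹) * (1 + 243 * t⁻¹) ^ 3 := by
      rw [three_j_eq h3 hrel]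
      field_simp
    rw [h1]
    exact Subring.mul_mem _ hT (Subring.pow_mem _ hT' 3)
  · exact Fc.inv_mem (Fc.add_mem Fc.one_mem (Fc.mul_mem (ofNat_mem _ _) (Fc.inv_mem htF)))
  · rw [hs1]
    exact V.sub_mem V.one_mem (V.mul_mem (ofNat_mem _ _) hsV)
  · have h1 : (1 + 27 * t⁻¹)⁻¹ * t⁻¹ = (t + 27)⁻¹ := by
      field_simp
    rw [h1]
    exact hs
  · have h1 : ((1 + 27 * t⁻¹) * (1 + 243 * t⁻¹)) ^ 3 * j⁻¹ = t⁻¹ * (1 + 27 * t⁻¹) ^ 2 := by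
      rw [three_j_eq h3 hrel]
      field_simp
    rw [h1]
    exact Subring.mul_mem _ hx (Subring.pow_mem _ hT 2)
  · exact mul_inv_cancel₀ hne
  · refine ⟨-(270 + 6561 * t⁻¹), Subring.neg_mem _ (Subring.add_mem _ (ofNat_mem _ _)
      (Subring.mul_mem _ (ofNat_mem _ _) hx)), 1, Subring.one_mem _, ?_⟩
    ring

end Three

end Fermat.Agent.S18.H947
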