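import Fermat.Agent.S18.H947.ChartMove

/-!
# S18 / M3-T (helper947): the `q`-expansion principle for the Hauptmodul `t₂`

Abstract.  `j * t ^ 2 = (t + 256) ^ 3`, `2` a unit of `R`.  From `qep_fin`, `qep_inf` for the
coordinate `j` we deduce `qep_fin`, `qep_inf` for the coordinate `t` (`two_qep_fin`, `two_qep_inf`).
Also: `t`, `t⁻¹` are integral over `R[j]` (hence lie in `V`).
-/

set_option autoImplicit false

namespace Fermat.Agent.S18.H947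

open Fermat.Agent.S18.Alg

variable {Ω : Type*} [Field Ω]

section Two

variable {Fc : Subfield Ω} {R V : Subring Ω} {w j t : Ω}

theorem two_t_ne_zero (h2 : (2 : Ω) ≠ 0) (hrel : j * t ^ 2 = (t + 256) ^ 3) : t ≠ 0 := by
  rintro rfl
  have h1 : (256 : Ω) ^ 3 = 0 := by
    have := hrel.symm
    simpa using this
  have h256 : (256 : Ω) = 2 ^ 8 := by norm_num
  rw [h256] at h1
  exact h2 (pow_eq_zero_iff (by norm_num)|>.1 (pow_eq_zero_iff (by norm_num)|>.1 h1))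

theorem two_t_add_ne_zero (h2 : (2 : Ω) ≠ 0) (hj0 : j ≠ 0)
    (hrel : j * t ^ 2 = (t + 256) ^ 3) : t + 256 ≠ 0 := by
  intro h
  have ht := two_t_ne_zero h2 hrel
  rw [h] at hrel
  have h1 : j * t ^ 2 = 0 := by simpa using hrel
  rcases mul_eq_zero.1 h1 with h3 | h3
  · exact hj0 h3
  · exact ht (pow_eq_zero_iff (by norm_num)|>.1 h3)

theorem two_j_eq (h2 : (2 : Ω) ≠ 0) (hrel : j * t ^ 2 = (t + 256) ^ 3) :
    j = (t + 256) ^ 3 / t ^ 2 := by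
  have ht := two_t_ne_zero h2 hrel
  field_simp
  exact hrel

theorem two_ofNat_inv_mem (h2R : (2 : Ω)⁻¹ ∈ R) (k : ℕ) : ((2 : Ω) ^ k)⁻¹ ∈ R :=
  inv_pow_mem h2R k

/-- `t` is integral over `R[j]`. -/
theorem two_isIntegral_t (hrel : j * t ^ 2 = (t + 256) ^ 3) : IsIntegral (polyRing R j) t := by
  refine isIntegral_of_cubic (c₀ := -16777216) (c₁ := -196608) (c₂ := j - 768) ?_ ?_ ?_ ?_
  · exact Subring.neg_mem _ (ofNat_mem _ _)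
  · exact Subring.neg_mem _ (ofNat_mem _ _)
  · exact Subring.sub_mem _ (self_mem_polyRing R j) (ofNat_mem _ _)
  · linear_combination (-1 : Ω) * hrel

/-- `t⁻¹` is integral over `R[j]`. -/
theorem two_isIntegral_tinv (h2 : (2 : Ω) ≠ 0) (h2R : (2 : Ω)⁻¹ ∈ R)
    (hrel : j * t ^ 2 = (t + 256) ^ 3) : IsIntegral (polyRing R j) t⁻¹ := by
  have ht := two_t_ne_zero h2 hrel
  have hu : ((2 : Ω) ^ 24)⁻¹ ∈ polyRing R j := le_polyRing R j (two_ofNat_inv_mem h2R 24)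
  refine isIntegral_of_cubic (c₀ := -((2 : Ω) ^ 24)⁻¹) (c₁ := ((2 : Ω) ^ 24)⁻¹ * (j - 768))
    (c₂ := -(((2 : Ω) ^ 24)⁻¹ * 196608)) ?_ ?_ ?_ ?_
  · exact Subring.neg_mem _ hu
  · exact Subring.mul_mem _ hu (Subring.sub_mem _ (self_mem_polyRing R j) (ofNat_mem _ _))
  · exact Subring.neg_mem _ (Subring.mul_mem _ hu (ofNat_mem _ _))
  · rw [two_j_eq h2 hrel]
    field_simp
    ring

/-- `s = (t + 256)⁻¹` is integral over `R[j⁻¹]`. -/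
theorem two_isIntegral_s (h2 : (2 : Ω) ≠ 0) (h2R : (2 : Ω)⁻¹ ∈ R) (hj0 : j ≠ 0)
    (hrel : j * t ^ 2 = (t + 256) ^ 3) : IsIntegral (polyRing R j⁻¹) (t + 256)⁻¹ := by
  have ht := two_t_ne_zero h2 hrel
  have ht' := two_t_add_ne_zero h2 hj0 hrel
  have hu : ((2 : Ω) ^ 16)⁻¹ ∈ polyRing R j⁻¹ := le_polyRing R j⁻¹ (two_ofNat_inv_mem h2R 16)
  refine isIntegral_of_cubic (c₀ := ((2 : Ω) ^ 16)⁻¹ * j⁻¹) (c₁ := -((2 : Ω) ^ 16)⁻¹)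
    (c₂ := ((2 : Ω) ^ 16)⁻¹ * 512) ?_ ?_ ?_ ?_
  · exact Subring.mul_mem _ hu (self_mem_polyRing R j⁻¹)
  · exact Subring.neg_mem _ hu
  · exact Subring.mul_mem _ hu (ofNat_mem _ _)
  · rw [two_j_eq h2 hrel]
    field_simp
    ring

/-- `s = (t + 256)⁻¹` lies in `V`. -/
theorem two_s_mem_V (h2 : (2 : Ω) ≠ 0) (h2R : (2 : Ω)⁻¹ ∈ R) (hj0 : j ≠ 0)
    (hrel : j * t ^ 2 = (t + 256) ^ 3) (hRV : R ≤ V) (hVtot : ∀ f ∈ Fc, f ∈ V ∨ f⁻¹ ∈ V)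
    (htF : t ∈ Fc) (hjinvV : j⁻¹ ∈ V) : (t + 256)⁻¹ ∈ V := by
  have hsF : (t + 256)⁻¹ ∈ Fc := Fc.inv_mem (Fc.add_mem htF (ofNat_mem _ _))
  exact mem_of_isIntegral_of_total (hVtot _ hsF)
    (isIntegral_mono (polyRing_le hRV hjinvV) (two_isIntegral_s h2 h2R hj0 hrel))

/-- **`qep_fin` for `t₂`.** -/
theorem two_qep_fin (h2 : (2 : Ω) ≠ 0) (h2R : (2 : Ω)⁻¹ ∈ R) (hj0 : j ≠ 0)
    (hrel : j * t ^ 2 = (t + 256) ^ 3) (hRV : R ≤ V) (hVtot : ∀ f ∈ Fc, f ∈ V ∨ f⁻¹ ∈ V)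
    (htF : t ∈ Fc) (hjinvV : j⁻¹ ∈ V)
    (hqf : ∀ b ∈ chart Fc R j, b * w⁻¹ ∈ V → b * w⁻¹ ∈ chart Fc R j)
    (hqi : ∀ b ∈ chart Fc R j⁻¹, b * w⁻¹ ∈ V → b * w⁻¹ ∈ chart Fc R j⁻¹) :
    ∀ b ∈ chart Fc R t, b * w⁻¹ ∈ V → b * w⁻¹ ∈ chart Fc R t := by
  have ht := two_t_ne_zero h2 hrel
  have ht' := two_t_add_ne_zero h2 hj0 hrel
  have hs := two_isIntegral_s (R := R) h2 h2R hj0 hrel
  have hsF : (t + 256)⁻¹ ∈ Fc := Fc.inv_mem (Fc.add_mem htF (ofNat_mem _ _))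
  have hsV := two_s_mem_V h2 h2R hj0 hrel hRV hVtot htF hjinvV
  have hT : t + 256 ∈ polyRing R t :=
    Subring.add_mem _ (self_mem_polyRing R t) (ofNat_mem _ _)
  refine qep_move hqf hqi (two_isIntegral_t hrel) (a₁ := t) (a₂ := t + 256)
    (s := (t + 256)⁻¹) (sinv := t + 256) (k₁ := 2) (k₂ := 3) ?_ ?_ hsF hsV hs ?_ hT ?_ hT ?_ ?_
  · exact self_mem_polyRing R t
  · rw [mul_comm, hrel]
    exact Subring.pow_mem _ hT 3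
  · have h1 : (t + 256)⁻¹ * t = 1 - 256 * (t + 256)⁻¹ := by
      field_simp
      ring
    rw [h1]
    exact (IC _).sub_mem (IC _).one_mem ((IC _).mul_mem (ofNat_mem _ _) hs)
  · have h1 : (t + 256) ^ 3 * j⁻¹ = t ^ 2 := by
      rw [two_j_eq h2 hrel]
      field_simp
    rw [h1]
    exact Subring.pow_mem _ (self_mem_polyRing R t) 2
  · exact mul_inv_cancel₀ ht'
  · refine ⟨-((2 : Ω) ^ 8)⁻¹, Subring.neg_mem _ (le_polyRing R t (two_ofNat_inv_mem h2R 8)),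
      ((2 : Ω) ^ 8)⁻¹, le_polyRing R t (two_ofNat_inv_mem h2R 8), ?_⟩
    field_simp
    ring

/-- **`qep_inf` for `t₂`.** -/
theorem two_qep_inf (h2 : (2 : Ω) ≠ 0) (h2R : (2 : Ω)⁻¹ ∈ R) (hj0 : j ≠ 0)
    (hrel : j * t ^ 2 = (t + 256) ^ 3) (hRV : R ≤ V) (hVtot : ∀ f ∈ Fc, f ∈ V ∨ f⁻¹ ∈ V)
    (htF : t ∈ Fc) (hjinvV : j⁻¹ ∈ V)
    (hqf : ∀ b ∈ chart Fc R j, b * w⁻¹ ∈ V → b * w⁻¹ ∈ chart Fc R j)
    (hqi : ∀ b ∈ chart Fc R j⁻¹, b * w⁻¹ ∈ V → b * w⁻¹ ∈ chart Fc R j⁻¹) :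
    ∀ b ∈ chart Fc R t⁻¹, b * w⁻¹ ∈ V → b * w⁻¹ ∈ chart Fc R t⁻¹ := by
  have ht := two_t_ne_zero h2 hrel
  have ht' := two_t_add_ne_zero h2 hj0 hrel
  have hs := two_isIntegral_s (R := R) h2 h2R hj0 hrel
  have hsF : (t + 256)⁻¹ ∈ Fc := Fc.inv_mem (Fc.add_mem htF (ofNat_mem _ _))
  have hsV := two_s_mem_V h2 h2R hj0 hrel hRV hVtot htF hjinvV
  have hT : 1 + 256 * t⁻¹ ∈ polyRing R t⁻¹ :=
    Subring.add_mem _ (Subring.one_mem _)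
      (Subring.mul_mem _ (ofNat_mem _ _) (self_mem_polyRing R t⁻¹))
  have hne : 1 + 256 * t⁻¹ ≠ 0 := by
    have h1 : 1 + 256 * t⁻¹ = (t + 256) * t⁻¹ := by
      field_simp
    rw [h1]
    exact mul_ne_zero ht' (inv_ne_zero ht)
  have hs1 : (1 + 256 * t⁻¹)⁻¹ = 1 - 256 * (t + 256)⁻¹ := by
    field_simp
    ring
  have hs1int : IsIntegral (polyRing R j⁻¹) (1 + 256 * t⁻¹)⁻¹ := by
    rw [hs1]
    exact (IC _).sub_mem (IC _).one_mem ((IC _).mul_mem (ofNat_mem _ _) hs)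
  refine qep_move hqf hqi (two_isIntegral_tinv h2 h2R hrel) (a₁ := t⁻¹) (a₂ := 1 + 256 * t⁻¹)
    (s := (1 + 256 * t⁻¹)⁻¹) (sinv := 1 + 256 * t⁻¹) (k₁ := 1) (k₂ := 3) ?_ ?_ ?_ ?_ hs1int ?_
    hT ?_ hT ?_ ?_
  · exact self_mem_polyRing R t⁻¹
  · have h1 : t⁻¹ ^ 1 * j = (1 + 256 * t⁻¹) ^ 3 := by
      rw [two_j_eq h2 hrel]
      field_simp
    rw [h1]
    exact Subring.pow_mem _ hT 3
  · exact Fc.inv_mem (Fc.add_mem Fc.one_mem (Fc.mul_mem (ofNat_mem _ _) (Fc.inv_mem htF)))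
  · rw [hs1]
    exact V.sub_mem V.one_mem (V.mul_mem (ofNat_mem _ _) hsV)
  · have h1 : (1 + 256 * t⁻¹)⁻¹ * t⁻¹ = (t + 256)⁻¹ := by
      field_simp
    rw [h1]
    exact hs
  · have h1 : (1 + 256 * t⁻¹) ^ 3 * j⁻¹ = t⁻¹ := by
      rw [two_j_eq h2 hrel]
      field_simp
    rw [h1]
    exact self_mem_polyRing R t⁻¹
  · exact mul_inv_cancel₀ hne
  · refine ⟨-256, Subring.neg_mem _ (ofNat_mem _ _), 1, Subring.one_mem _, ?_⟩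
    ring

end Two

end Fermat.Agent.S18.H947
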