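import Fermat.Agent.S18.H947.LevelThree
import Fermat.Agent.S18.H947.FieldMove
import Fermat.Agent.S18.H947.GaussMove

/-!
# S18 / M3-T (helper947): all coordinate-dependent fields move from `j` to `t₃`

Abstract.  `j * t ^ 3 = (t + 27) * (t + 243) ^ 3`, `3` a unit of `R`.  Elementwise statements
(`three_t_mem_V`, `three_tinv_mem_V`, `three_gauss`, `three_separable`, `three_finite`,
`three_transcendental`); together with `three_qep_fin`, `three_qep_inf` (LevelThree.lean) these are all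
the fields of `Alg.GoodModel` that mention the coordinate, except the branch data `S_*`,
`unramified`.
-/

set_option autoImplicit false

namespace Fermat.Agent.S18.H947

open Fermat.Agent.S18.Alg

variable {Ω : Type*} [Field Ω]

section Three

variable {Lc Ec Fc : Subfield Ω} {R V : Subring Ω} {w j t : Ω}

/-- `t ∈ V`. -/
theorem three_t_mem_V (hrel : j * t ^ 3 = (t + 27) * (t + 243) ^ 3) (hRV : R ≤ V)
    (hVtot : ∀ f ∈ Fc, f ∈ V ∨ f⁻¹ ∈ V) (htF : t ∈ Fc) (hjV : j ∈ V) : t ∈ V :=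
  mem_of_isIntegral_of_total (hVtot _ htF)
    (isIntegral_mono (polyRing_le hRV hjV) (three_isIntegral_t hrel))

/-- `t⁻¹ ∈ V`. -/
theorem three_tinv_mem_V (h3 : (3 : Ω) ≠ 0) (h3R : (3 : Ω)⁻¹ ∈ R)
    (hrel : j * t ^ 3 = (t + 27) * (t + 243) ^ 3) (hRV : R ≤ V)
    (hVtot : ∀ f ∈ Fc, f ∈ V ∨ f⁻¹ ∈ V) (htF : t ∈ Fc) (hjV : j ∈ V) : t⁻¹ ∈ V :=
  mem_of_isIntegral_of_total (hVtot _ (Fc.inv_mem htF))
    (isIntegral_mono (polyRing_le hRV hjV) (three_isIntegral_tinv h3 h3R hrel))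

theorem three_j_eq' (h3 : (3 : Ω) ≠ 0) (hrel : j * t ^ 3 = (t + 27) * (t + 243) ^ 3) :
    j = (t + 27) * (t + 243) ^ 3 * t⁻¹ ^ 3 := by
  have ht := three_t_ne_zero h3 hrel
  rw [three_j_eq h3 hrel]
  field_simp

/-- **`gauss` for `t₃`.** -/
theorem three_gauss (h3 : (3 : Ω) ≠ 0) (h3R : (3 : Ω)⁻¹ ∈ R)
    (hrel : j * t ^ 3 = (t + 27) * (t + 243) ^ 3) (hRV : R ≤ V) (hwR : w ∈ R) (hw0 : w ≠ 0)
    (hwinv : w⁻¹ ∉ V) (hRgen : ∀ r ∈ R, r⁻¹ ∉ R → r * w⁻¹ ∈ R)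
    (hVgen : ∀ f ∈ V, f⁻¹ ∉ V → f * w⁻¹ ∈ V) (hVtot : ∀ f ∈ Fc, f ∈ V ∨ f⁻¹ ∈ V)
    (htF : t ∈ Fc) (hjV : j ∈ V)
    (hgauss : ∀ P : Polynomial Ω, (∀ i, P.coeff i ∈ R) →
      (∃ i, P.coeff i ≠ 0 ∧ (P.coeff i)⁻¹ ∈ R) → (P.eval j)⁻¹ ∈ V)
    (hne : ∀ P : Polynomial Ω, P.Monic → (∀ i, P.coeff i ∈ R) → P.eval j ≠ 0) :
    ∀ P : Polynomial Ω, (∀ i, P.coeff i ∈ R) →
      (∃ i, P.coeff i ≠ 0 ∧ (P.coeff i)⁻¹ ∈ R) → (P.eval t)⁻¹ ∈ V := by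
  have ht := three_t_ne_zero h3 hrel
  refine gauss_move hRV (hRV hwR) hw0 hwinv hRgen hVgen hgauss hne
    (three_t_mem_V hrel hRV hVtot htF hjV) (three_tinv_mem_V h3 h3R hrel hRV hVtot htF hjV)
    (mul_inv_cancel₀ ht) ?_
  rw [three_j_eq' h3 hrel]
  have h1 : t ∈ Subring.closure ((R : Set Ω) ∪ {t, t⁻¹}) :=
    Subring.subset_closure (Or.inr (Or.inl rfl))
  have h2' : t⁻¹ ∈ Subring.closure ((R : Set Ω) ∪ {t, t⁻¹}) :=
    Subring.subset_closure (Or.inr (Or.inr rfl))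
  exact Subring.mul_mem _ (Subring.mul_mem _ (Subring.add_mem _ h1 (ofNat_mem _ _))
    (Subring.pow_mem _ (Subring.add_mem _ h1 (ofNat_mem _ _)) 3)) (Subring.pow_mem _ h2' 3)

/-- **`separable` for `t₃`.** -/
theorem three_separable (h3 : (3 : Ω) ≠ 0) (h3R : (3 : Ω)⁻¹ ∈ R)
    (hrel : j * t ^ 3 = (t + 27) * (t + 243) ^ 3) (hRV : R ≤ V)
    (hVtot : ∀ f ∈ Fc, f ∈ V ∨ f⁻¹ ∈ V) (htF : t ∈ Fc) (hjV : j ∈ V)
    (h : ∀ f ∈ V, ∃ P : Polynomial Ω, (∀ i, P.coeff i ∈ polyRing R j) ∧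
      P.eval f * w⁻¹ ∈ V ∧ (Polynomial.derivative P).eval f ≠ 0 ∧
      ((Polynomial.derivative P).eval f)⁻¹ ∈ V) :
    ∀ f ∈ V, ∃ P : Polynomial Ω, (∀ i, P.coeff i ∈ polyRing R t) ∧
      P.eval f * w⁻¹ ∈ V ∧ (Polynomial.derivative P).eval f ≠ 0 ∧
      ((Polynomial.derivative P).eval f)⁻¹ ∈ V := by
  refine separable_move (three_t_mem_V hrel hRV hVtot htF hjV)
    (three_tinv_mem_V h3 h3R hrel hRV hVtot htF hjV) (three_t_ne_zero h3 hrel) ⟨3, ?_⟩ h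
  rw [mul_comm, hrel]
  exact Subring.mul_mem _ (Subring.add_mem _ (self_mem_polyRing R t) (ofNat_mem _ _))
    (Subring.pow_mem _ (Subring.add_mem _ (self_mem_polyRing R t) (ofNat_mem _ _)) 3)

/-- **`finite` for `t₃`.** -/
theorem three_finite (h3 : (3 : Ω) ≠ 0) (hrel : j * t ^ 3 = (t + 27) * (t + 243) ^ 3)
    (h : ∃ s : Finset Ω, (s : Set Ω) ⊆ Fc ∧
      ∀ f ∈ Fc, f ∈ Submodule.span (ratField Ec j) (s : Set Ω)) :
    ∃ s : Finset Ω, (s : Set Ω) ⊆ Fc ∧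
      ∀ f ∈ Fc, f ∈ Submodule.span (ratField Ec t) (s : Set Ω) := by
  refine finite_move ?_ h
  rw [three_j_eq' h3 hrel]
  have h1 : t ∈ ratField Ec t := self_mem_ratField Ec t
  exact (ratField Ec t).mul_mem
    ((ratField Ec t).mul_mem ((ratField Ec t).add_mem h1 (ofNat_mem _ _))
      ((ratField Ec t).pow_mem ((ratField Ec t).add_mem h1 (ofNat_mem _ _)) 3))
    ((ratField Ec t).pow_mem ((ratField Ec t).inv_mem h1) 3)

/-- **`x_transcendental` for `t₃`.** -/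
theorem three_transcendental (h3 : (3 : Ω) ≠ 0) (hrel : j * t ^ 3 = (t + 27) * (t + 243) ^ 3)
    (h : Transcendental Lc j) : Transcendental Lc t := by
  refine transcendental_move h ?_
  rw [three_j_eq' h3 hrel]
  have h1 : t ∈ Subfield.closure ((Lc : Set Ω) ∪ {t}) := Subfield.subset_closure (Or.inr rfl)
  exact Subfield.mul_mem _ (Subfield.mul_mem _ (Subfield.add_mem _ h1 (ofNat_mem _ _))
    (Subfield.pow_mem _ (Subfield.add_mem _ h1 (ofNat_mem _ _)) 3))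
    (Subfield.pow_mem _ (Subfield.inv_mem _ h1) 3)

end Three

end Fermat.Agent.S18.H947
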