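import Fermat.Agent.S18.Mod.H216.Parts
import Fermat.Agent.S18.H947.TransferTwo
import Fermat.Agent.S18.H947.TransferThree

/-!
# S18 / M3-T (helper947): the PARTS of `Alg.GoodModel` move from `x = j` to `x = t₂, t₃`

In the language of helper216's `Mod/H216/Parts.lean` (`PartR`, `PartFld`, `PartV`, `PartQep`,
`PartSep`).  Abstract: `Ω` any field.

Level 2 (`ℓ = 3`):  `j * t ^ 2 = (t + 256) ^ 3`, `(2 : Ω)⁻¹ ∈ R`.
Level 3 (`ℓ = 2`):  `j * t ^ 3 = (t + 27) * (t + 243) ^ 3`, `(3 : Ω)⁻¹ ∈ R`.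

Inputs besides the parts at `j` (Alg/Spec v4, with `x_mem_V`): `CharZero Ω`, `t ∈ Fc`.

* `partFld_two`, `partV_two`, `partQep_two`, `partSep_two`
* `partFld_three`, `partV_three`, `partQep_three`, `partSep_three`
* `goodModel_two`, `goodModel_three` : the full `GoodModel … t S` from the parts at `j` and the
  branch part `PartBr Lc R t S` at `t`.
-/

set_option autoImplicit false

namespace Fermat.Agent.S18.H947

open Fermat.Agent.S18.Alg Fermat.Agent.S18.Mod.H216

variable {Ω : Type*} [Field Ω]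

variable {Lc Ec Fc : Subfield Ω} {R V : Subring Ω} {w j t : Ω} {S : Finset Ω}

theorem PartFld_j_ne_zero (hF : PartFld Lc Ec Fc j) : j ≠ 0 := by
  rintro rfl
  exact hF.x_transcendental isAlgebraic_zero

theorem PartV_inv_mem (hV : PartV Fc R V w j) : j⁻¹ ∈ V := by
  have := hV.gauss Polynomial.X (fun i => by
    rw [Polynomial.coeff_X]
    split_ifs
    · exact R.one_mem
    · exact R.zero_mem) ⟨1, by simp⟩
  simpa using this

theorem PartFld_eval_ne_zero (hR : PartR Ec R w) (hF : PartFld Lc Ec Fc j)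
    (P : Polynomial Ω) (hP : P.Monic) (hc : ∀ i, P.coeff i ∈ R) : P.eval j ≠ 0 :=
  eval_ne_zero_of_transcendental hF.x_transcendental P hP.ne_zero
    (fun i => hF.E_le_L (hR.R_le (hc i)))

/-! ### Level 2 -/

theorem partFld_two [CharZero Ω] (hrel : j * t ^ 2 = (t + 256) ^ 3) (htF : t ∈ Fc)
    (hF : PartFld Lc Ec Fc j) : PartFld Lc Ec Fc t where
  E_le_L := hF.E_le_L
  E_le_F := hF.E_le_F
  L_algebraic := hF.L_algebraic
  L_algClosed := hF.L_algClosed
  E_closed_in_F := hF.E_closed_in_F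
  compositum := hF.compositum
  x_mem := htF
  x_transcendental := two_transcendental two_ne_zero hrel hF.x_transcendental
  finite := two_finite two_ne_zero hrel hF.finite

theorem partV_two [CharZero Ω] (h2R : (2 : Ω)⁻¹ ∈ R) (hrel : j * t ^ 2 = (t + 256) ^ 3)
    (htF : t ∈ Fc) (hR : PartR Ec R w) (hF : PartFld Lc Ec Fc j)
    (hV : PartV Fc R V w j) : PartV Fc R V w t where
  V_le := hV.V_le
  V_total := hV.V_total
  R_le_V := hV.R_le_V
  w_inv_not_mem_V := hV.w_inv_not_mem_V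
  V_gen := hV.V_gen
  x_mem_V := two_t_mem_V hrel hV.R_le_V hV.V_total htF hV.x_mem_V
  gauss := two_gauss two_ne_zero h2R hrel hV.R_le_V hR.w_mem hR.w_ne_zero hV.w_inv_not_mem_V
    hR.w_gen hV.V_gen hV.V_total htF hV.x_mem_V hV.gauss (PartFld_eval_ne_zero hR hF)

theorem partQep_two [CharZero Ω] (h2R : (2 : Ω)⁻¹ ∈ R) (hrel : j * t ^ 2 = (t + 256) ^ 3)
    (htF : t ∈ Fc) (hF : PartFld Lc Ec Fc j) (hV : PartV Fc R V w j)
    (hQ : PartQep Fc R V w j) : PartQep Fc R V w t where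
  qep_fin := two_qep_fin two_ne_zero h2R (PartFld_j_ne_zero hF) hrel hV.R_le_V hV.V_total htF
    (PartV_inv_mem hV) hQ.qep_fin hQ.qep_inf
  qep_inf := two_qep_inf two_ne_zero h2R (PartFld_j_ne_zero hF) hrel hV.R_le_V hV.V_total htF
    (PartV_inv_mem hV) hQ.qep_fin hQ.qep_inf

theorem partSep_two [CharZero Ω] (h2R : (2 : Ω)⁻¹ ∈ R) (hrel : j * t ^ 2 = (t + 256) ^ 3)
    (htF : t ∈ Fc) (hV : PartV Fc R V w j) (hS : PartSep R V w j) :
    PartSep R V w t where
  separable := two_separable two_ne_zero h2R hrel hV.R_le_V hV.V_total htF hV.x_mem_V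
    hS.separable

/-- **M3-T, level 2, abstract**: `GoodModel` at `t₂` from the parts at `j` and the branch part
at `t₂`. -/
theorem goodModel_two [CharZero Ω] (h2R : (2 : Ω)⁻¹ ∈ R) (hrel : j * t ^ 2 = (t + 256) ^ 3)
    (htF : t ∈ Fc) (hR : PartR Ec R w) (hF : PartFld Lc Ec Fc j)
    (hV : PartV Fc R V w j) (hQ : PartQep Fc R V w j) (hS : PartSep R V w j)
    (hB : PartBr Lc R t S) : GoodModel Lc Ec Fc R V w t S :=
  goodModel_of_parts inferInstance hR (partFld_two hrel htF hF)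
    (partV_two h2R hrel htF hR hF hV) (partQep_two h2R hrel htF hF hV hQ)
    (partSep_two h2R hrel htF hV hS) hB

/-! ### Level 3 -/

theorem partFld_three [CharZero Ω] (hrel : j * t ^ 3 = (t + 27) * (t + 243) ^ 3) (htF : t ∈ Fc)
    (hF : PartFld Lc Ec Fc j) : PartFld Lc Ec Fc t where
  E_le_L := hF.E_le_L
  E_le_F := hF.E_le_F
  L_algebraic := hF.L_algebraic
  L_algClosed := hF.L_algClosed
  E_closed_in_F := hF.E_closed_in_F
  compositum := hF.compositum
  x_mem := htF
  x_transcendental := three_transcendental three_ne_zero hrel hF.x_transcendental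
  finite := three_finite three_ne_zero hrel hF.finite

theorem partV_three [CharZero Ω] (h3R : (3 : Ω)⁻¹ ∈ R)
    (hrel : j * t ^ 3 = (t + 27) * (t + 243) ^ 3)
    (htF : t ∈ Fc) (hR : PartR Ec R w) (hF : PartFld Lc Ec Fc j)
    (hV : PartV Fc R V w j) : PartV Fc R V w t where
  V_le := hV.V_le
  V_total := hV.V_total
  R_le_V := hV.R_le_V
  w_inv_not_mem_V := hV.w_inv_not_mem_V
  V_gen := hV.V_gen
  x_mem_V := three_t_mem_V hrel hV.R_le_V hV.V_total htF hV.x_mem_V
  gauss := three_gauss three_ne_zero h3R hrel hV.R_le_V hR.w_mem hR.w_ne_zero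
    hV.w_inv_not_mem_V hR.w_gen hV.V_gen hV.V_total htF hV.x_mem_V hV.gauss
    (PartFld_eval_ne_zero hR hF)

theorem partQep_three [CharZero Ω] (h3R : (3 : Ω)⁻¹ ∈ R)
    (hrel : j * t ^ 3 = (t + 27) * (t + 243) ^ 3)
    (htF : t ∈ Fc) (hF : PartFld Lc Ec Fc j) (hV : PartV Fc R V w j)
    (hQ : PartQep Fc R V w j) : PartQep Fc R V w t where
  qep_fin := three_qep_fin three_ne_zero h3R (PartFld_j_ne_zero hF) hrel hV.R_le_V hV.V_total
    htF (PartV_inv_mem hV) hQ.qep_fin hQ.qep_inf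
  qep_inf := three_qep_inf three_ne_zero h3R (PartFld_j_ne_zero hF) hrel hV.R_le_V hV.V_total
    htF (PartV_inv_mem hV) hQ.qep_fin hQ.qep_inf

theorem partSep_three [CharZero Ω] (h3R : (3 : Ω)⁻¹ ∈ R)
    (hrel : j * t ^ 3 = (t + 27) * (t + 243) ^ 3)
    (htF : t ∈ Fc) (hV : PartV Fc R V w j) (hS : PartSep R V w j) :
    PartSep R V w t where
  separable := three_separable three_ne_zero h3R hrel hV.R_le_V hV.V_total htF hV.x_mem_V
    hS.separable

/-- **M3-T, level 3, abstract**: `GoodModel` at `t₃` from the parts at `j` and the branch part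
at `t₃`. -/
theorem goodModel_three [CharZero Ω] (h3R : (3 : Ω)⁻¹ ∈ R)
    (hrel : j * t ^ 3 = (t + 27) * (t + 243) ^ 3)
    (htF : t ∈ Fc) (hR : PartR Ec R w) (hF : PartFld Lc Ec Fc j)
    (hV : PartV Fc R V w j) (hQ : PartQep Fc R V w j) (hS : PartSep R V w j)
    (hB : PartBr Lc R t S) : GoodModel Lc Ec Fc R V w t S :=
  goodModel_of_parts inferInstance hR (partFld_three hrel htF hF)
    (partV_three h3R hrel htF hR hF hV) (partQep_three h3R hrel htF hF hV hQ)
    (partSep_three h3R hrel htF hV hS) hB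

end Fermat.Agent.S18.H947
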